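import Mathlib

set_option autoImplicit false

namespace Fermat.Agent.S51

/-- The descent statement for the modular curve of level fifteen
(in the model `y ^ 2 = x * (x + 9) * (x - 16)`). -/
def Descent15 : Prop :=
  ∀ x y : ℚ, y ^ 2 = x * (x + 9) * (x - 16) → y = 0 ∨ x = 36 ∨ x = -4

/-- Algebraic core: rational data of a rational `3`-isogeny (`w`) and a rational
`5`-isogeny (`S1`, `S2`) on `y ^ 2 = x ^ 3 + A x + B` force one of four values of the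
level-five parameter. -/
theorem core_s (hD : Descent15) (A B w S1 S2 : ℚ)
    (h1 : 3 * w ^ 4 + 6 * A * w ^ 2 + 12 * B * w - A ^ 2 = 0)
    (h2 : 4 * B = S1 * (S1 ^ 2 - 6 * S2 - 2 * A))
    (h3 : A ^ 2 + 2 * A * (S1 ^ 2 - S2) - S1 ^ 4 + 5 * S1 ^ 2 * S2 + 5 * S2 ^ 2 = 0)
    (hdisc : 4 * A ^ 3 + 27 * B ^ 2 ≠ 0) :
    ∃ s : ℚ, (s = -10 ∨ s = -25 / 2 ∨ s = -40 ∨ s = -25 / 8) ∧
      4 * A - 7 * S1 ^ 2 + 40 * S2 = s * (S1 ^ 2 - 4 * S2) ∧ S1 ^ 2 - 4 * S2 ≠ 0 := by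
  obtain ⟨F3, hF3⟩ : ∃ F3 : ℚ, F3 = S1 ^ 2 - 4 * S2 := ⟨_, rfl⟩
  obtain ⟨F4, hF4⟩ : ∃ F4 : ℚ, F4 = 4 * A - 7 * S1 ^ 2 + 40 * S2 := ⟨_, rfl⟩
  obtain ⟨F5, hF5⟩ : ∃ F5 : ℚ, F5 = w ^ 2 - S1 * w + S2 := ⟨_, rfl⟩
  have hdisc' : 16 * (4 * A ^ 3 + 27 * B ^ 2) = -(F4 * F3 ^ 2) := by
    have hB : B = S1 * (S1 ^ 2 - 6 * S2 - 2 * A) / 4 := by linarith
    rw [hB, hF3, hF4]
    linear_combination (64 * A - 20 * S1 ^ 2 + 128 * S2) * h3
  have hF3ne : F3 ≠ 0 := by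
    rintro h
    apply hdisc
    rw [h] at hdisc'
    linarith
  have hF4ne : F4 ≠ 0 := by
    rintro h
    apply hdisc
    rw [h] at hdisc'
    linarith
  have hpos : (2 * (A + S1 ^ 2 - S2)) ^ 2 = F3 * (9 * S1 ^ 2 - F3) := by
    rw [hF3]
    linear_combination 4 * h3
  have hF3pos : 0 < F3 := by
    rcases lt_or_gt_of_ne hF3ne with hneg | hp
    · exfalso
      have h9 : 0 < 9 * S1 ^ 2 - F3 := by nlinarith [sq_nonneg S1]
      have : F3 * (9 * S1 ^ 2 - F3) < 0 := mul_neg_of_neg_of_pos hneg h9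
      nlinarith [sq_nonneg (2 * (A + S1 ^ 2 - S2))]
    · exact hp
  have hRgs : F5 * (2 * F5 * F4 + 13 * F5 * F3 - 3 * F3 ^ 2) ^ 2
      = (F5 + F3) ^ 2 * (4 * F5 + F3) * (9 * F5 - 4 * F3) * F3 := by
    rw [hF3, hF4, hF5]
    linear_combination
      (-(128/3)*A^3 + (64/3)*A^2*w^2 - 64*A^2*w*S1 + (68/3)*A^2*S1^2 - (80/3)*A^2*S2 + (56/3)*A*w^2*S1^2 + (160/3)*A*w^2*S2 - 104*A*w*S1^3 + 32*A*w*S1*S2 + (752/3)*A*S1^4 - (1840/3)*A*S1^2*S2 - (64/3)*A*S2^2 - 12*w^4*S1^2 + 48*w^4*S2 + 48*w^3*S1^3 - 192*w^3*S1*S2 - (280/3)*w^2*S1^4 + (1184/3)*w^2*S1^2*S2 + (320/3)*w^2*S2^2 + 124*w*S1^5 - 632*w*S1^3*S2 - 32*w*S1*S2^2 - 128*S1^6 + 784*S1^4*S2 - 248*S1^2*S2^2 - 480*S2^3) * h1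
      + (-3 * w * (-(128/3)*A^3 + (64/3)*A^2*w^2 - 64*A^2*w*S1 + (68/3)*A^2*S1^2 - (80/3)*A^2*S2 + (56/3)*A*w^2*S1^2 + (160/3)*A*w^2*S2 - 104*A*w*S1^3 + 32*A*w*S1*S2 + (752/3)*A*S1^4 - (1840/3)*A*S1^2*S2 - (64/3)*A*S2^2 - 12*w^4*S1^2 + 48*w^4*S2 + 48*w^3*S1^3 - 192*w^3*S1*S2 - (280/3)*w^2*S1^4 + (1184/3)*w^2*S1^2*S2 + (320/3)*w^2*S2^2 + 124*w*S1^5 - 632*w*S1^3*S2 - 32*w*S1*S2^2 - 128*S1^6 + 784*S1^4*S2 - 248*S1^2*S2^2 - 480*S2^3)) * h2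
      + (-(128/3)*A^3 + (832/3)*A^2*w^2 - 320*A^2*w*S1 + 108*A^2*S1^2 - 112*A^2*S2 + 512*A*w^3*S1 - 1056*A*w^2*S1^2 + 768*A*w^2*S2 + 800*A*w*S1^3 - 1536*A*w*S1*S2 - 8*A*S1^4 + 40*A*S1^2*S2 - 32*A*S2^2 - 368*w^3*S1^3 + 960*w^3*S1*S2 + 360*w^2*S1^4 - 1728*w^2*S1^2*S2 + 576*w^2*S2^2 - 360*w*S1^5 + 2448*w*S1^3*S2 - 2304*w*S1*S2^2 - 4*S1^6 + 36*S1^4*S2 - 84*S1^2*S2^2 + 80*S2^3) * h3
  have hF5ne : F5 ≠ 0 := by
    intro h
    rw [h] at hRgs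
    have h5 : F3 ^ 5 = 0 := by linear_combination (1/4 : ℚ) * hRgs
    exact hF3ne (pow_eq_zero_iff (by norm_num) |>.mp h5)
  have hsum : F5 + F3 ≠ 0 := by
    have h4 : 4 * (F5 + F3) = (2 * w - S1) ^ 2 + 3 * F3 := by rw [hF5, hF3]; ring
    intro h
    rw [h] at h4
    nlinarith [sq_nonneg (2 * w - S1)]
  -- normalised parameters
  obtain ⟨g, hg⟩ : ∃ g : ℚ, g = F5 / F3 := ⟨_, rfl⟩
  obtain ⟨s, hs⟩ : ∃ s : ℚ, s = F4 / F3 := ⟨_, rfl⟩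
  have hF5g : F5 = g * F3 := by rw [hg]; field_simp
  have hF4s : F4 = s * F3 := by rw [hs]; field_simp
  have hg0 : g ≠ 0 := by
    rw [hg]; exact div_ne_zero hF5ne hF3ne
  have hs0 : s ≠ 0 := by
    rw [hs]; exact div_ne_zero hF4ne hF3ne
  have hg1 : g + 1 ≠ 0 := by
    intro h
    apply hsum
    rw [hF5g]
    linear_combination F3 * h
  have hrel : g * (2 * g * s + 13 * g - 3) ^ 2 = (g + 1) ^ 2 * (4 * g + 1) * (9 * g - 4) := by
    have h5 : F3 ^ 5 ≠ 0 := pow_ne_zero 5 hF3ne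
    apply mul_left_cancel₀ h5
    rw [hF5g, hF4s] at hRgs
    linear_combination hRgs
  refine ⟨s, ?_, by rw [← hF4, ← hF3, hF4s], by rw [← hF3]; exact hF3ne⟩
  have hpt : (36 * g * (2 * g * s + 13 * g - 3) / (g + 1)) ^ 2
      = (36 * g) * (36 * g + 9) * (36 * g - 16) := by
    rw [div_pow, div_eq_iff (pow_ne_zero 2 hg1)]
    linear_combination (1296 * g) * hrel
  rcases hD _ _ hpt with h | h | h
  · -- y = 0
    have hy : 2 * g * s + 13 * g - 3 = 0 := by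
      have h' : 36 * g * (2 * g * s + 13 * g - 3) = 0 := by
        have := div_eq_zero_iff.mp h
        rcases this with h | h
        · exact h
        · exact absurd h hg1
      rcases mul_eq_zero.mp h' with h'' | h''
      · exfalso; apply hg0; linarith
      · exact h''
    rw [hy] at hrel
    have hz : (4 * g + 1) * (9 * g - 4) = 0 := by
      have h2 : (g + 1) ^ 2 ≠ 0 := pow_ne_zero 2 hg1
      apply mul_left_cancel₀ h2
      linear_combination -hrel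
    rcases mul_eq_zero.mp hz with h4 | h9
    · -- g = -1/4, s = -25/2
      right; left
      have hgv : g = -1 / 4 := by linarith
      rw [hgv] at hy
      linarith
    · -- g = 4/9, s = -25/8
      right; right; right
      have hgv : g = 4 / 9 := by linarith
      rw [hgv] at hy
      linarith
  · -- x = 36, g = 1
    have hgv : g = 1 := by linarith
    rw [hgv] at hrel
    have : (2 * s) * (2 * s + 20) = 0 := by linear_combination hrel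
    rcases mul_eq_zero.mp this with h' | h'
    · exfalso; apply hs0; linarith
    · left; linarith
  · -- x = -4, g = -1/9
    have hgv : g = -1 / 9 := by linarith
    rw [hgv] at hrel
    have : (2 * s) * (2 * s + 80) = 0 := by linear_combination (-729 : ℚ) * hrel
    rcases mul_eq_zero.mp this with h' | h'
    · exfalso; apply hs0; linarith
    · right; right; left; linarith

end Fermat.Agent.S51
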