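import Mathlib

set_option autoImplicit false

/-!
Rational points of `y^2 = x (x+9) (x-16)` (the curve 15a1): only the eight torsion points.

Route: pass to the 2-isogenous curve `Y^2 = X (X-1) (X-81)` and show by descent that there are
no integers `M N A B`, `N ≠ 0`, with `M^2 - N^2 = A^2` and `M^2 - 81 N^2 = B^2`.
-/

namespace Fermat.Agent.S51

theorem h40_zmod8a : ∀ m n a : ZMod 8, m^2 - n^2 = a^2 →
    (4 * m = 0 → 4 * n = 0 → False) → (4 * m ≠ 0) ∧ (4 * n ≠ 0 → 2 * a = 0) := by decide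

theorem h40_zmod8b : ∀ m n b : ZMod 8, m^2 - 81 * n^2 = b^2 →
    4 * m ≠ 0 → 4 * n ≠ 0 → 2 * b = 0 := by decide

theorem h40_zmod3 : ∀ m n a : ZMod 3, m^2 - n^2 = a^2 → m = 0 → n = 0 := by decide

theorem h40_even_iff (X : ℤ) : (4 * (X : ZMod 8) = 0) ↔ (2:ℤ) ∣ X := by
  have h : (4 * (X : ZMod 8)) = ((4 * X : ℤ) : ZMod 8) := by push_cast; ring
  rw [h, ZMod.intCast_zmod_eq_zero_iff_dvd]
  constructor <;> intro h <;> omega

theorem h40_four_iff (X : ℤ) : (2 * (X : ZMod 8) = 0) ↔ (4:ℤ) ∣ X := by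
  have h : (2 * (X : ZMod 8)) = ((2 * X : ℤ) : ZMod 8) := by push_cast; ring
  rw [h, ZMod.intCast_zmod_eq_zero_iff_dvd]
  constructor <;> intro h <;> omega

theorem h40_not_both {M N : ℤ} (hcop : IsCoprime M N) {d : ℤ} (hd : ¬ IsUnit d) :
    d ∣ M → d ∣ N → False := fun h1 h2 => hd (hcop.isUnit_of_dvd' h1 h2)

theorem h40_parity {M N A B : ℤ} (hcop : IsCoprime M N)
    (h1 : M^2 - N^2 = A^2) (h2 : M^2 - 81 * N^2 = B^2) :
    ¬ (2:ℤ) ∣ M ∧ (¬ (2:ℤ) ∣ N → (4:ℤ) ∣ A ∧ (4:ℤ) ∣ B) := by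
  have e1 : ((M:ZMod 8))^2 - (N:ZMod 8)^2 = (A:ZMod 8)^2 := by
    have := congrArg (Int.cast : ℤ → ZMod 8) h1
    push_cast at this; exact this
  have e2 : ((M:ZMod 8))^2 - 81 * (N:ZMod 8)^2 = (B:ZMod 8)^2 := by
    have := congrArg (Int.cast : ℤ → ZMod 8) h2
    push_cast at this; exact this
  have hu : ¬ IsUnit (2:ℤ) := by rw [Int.isUnit_iff]; omega
  have hboth : 4 * (M : ZMod 8) = 0 → 4 * (N : ZMod 8) = 0 → False := fun hm hn =>
    h40_not_both hcop hu ((h40_even_iff M).mp hm) ((h40_even_iff N).mp hn)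
  obtain ⟨hM, hA⟩ := h40_zmod8a _ _ _ e1 hboth
  refine ⟨fun h => hM ((h40_even_iff M).mpr h), fun hN => ?_⟩
  have hN' : 4 * (N : ZMod 8) ≠ 0 := fun h => hN ((h40_even_iff N).mp h)
  exact ⟨(h40_four_iff A).mp (hA hN'), (h40_four_iff B).mp (h40_zmod8b _ _ _ e2 hM hN')⟩

theorem h40_three {M N A : ℤ} (hcop : IsCoprime M N) (h1 : M^2 - N^2 = A^2) : ¬ (3:ℤ) ∣ M := by
  intro h3
  have e1 : ((M:ZMod 3))^2 - (N:ZMod 3)^2 = (A:ZMod 3)^2 := by
    have := congrArg (Int.cast : ℤ → ZMod 3) h1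
    push_cast at this; exact this
  have hM0 : (M : ZMod 3) = 0 := (ZMod.intCast_zmod_eq_zero_iff_dvd M 3).mpr (by exact_mod_cast h3)
  have hN0 := h40_zmod3 _ _ _ e1 hM0
  have h3N : (3:ℤ) ∣ N := by exact_mod_cast (ZMod.intCast_zmod_eq_zero_iff_dvd N 3).mp hN0
  have hu : ¬ IsUnit (3:ℤ) := by rw [Int.isUnit_iff]; omega
  exact h40_not_both hcop hu h3 h3N

theorem h40_prime_five : Prime (5:ℤ) := by
  rw [Int.prime_iff_natAbs_prime]; norm_num

theorem h40_five {M N A B : ℤ} (hcop : IsCoprime M N)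
    (h1 : M^2 - N^2 = A^2) (h2 : M^2 - 81 * N^2 = B^2) : ¬ (5:ℤ) ∣ A := by
  rintro ⟨a, rfl⟩
  have p5 := h40_prime_five
  have hB2 : (5:ℤ) ∣ B^2 := ⟨5 * a^2 - 16 * N^2, by linear_combination h1 - h2⟩
  obtain ⟨b, rfl⟩ := p5.dvd_of_dvd_pow hB2
  have hN2 : (5:ℤ) ∣ 16 * N^2 := ⟨a^2 - b^2, by linarith⟩
  have hN : (5:ℤ) ∣ N := by
    rcases p5.dvd_or_dvd hN2 with h | h
    · omega
    · exact p5.dvd_of_dvd_pow h
  have hM2 : (5:ℤ) ∣ M^2 := by
    obtain ⟨n, rfl⟩ := hN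
    exact ⟨5 * a^2 + 5 * n^2, by linear_combination h1⟩
  have hM := p5.dvd_of_dvd_pow hM2
  have hu : ¬ IsUnit (5:ℤ) := by rw [Int.isUnit_iff]; omega
  exact h40_not_both hcop hu hM hN

theorem h40_cop_NA {M N A : ℤ} (hcop : IsCoprime M N) (h1 : M^2 - N^2 = A^2) : IsCoprime N A := by
  have h : IsCoprime N (A^2) := by
    have h0 : IsCoprime N (M^2) := hcop.symm.pow_right
    have e : A^2 = M^2 + N * (-N) := by linear_combination -h1
    rw [e]; exact h0.add_mul_left_right _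
  exact (IsCoprime.pow_right_iff (by norm_num : 0 < 2)).mp h

theorem h40_cop_of_mul_add {P Q : ℤ} (h : IsCoprime (P * Q) (P + Q)) : IsCoprime P Q := by
  have h1 : IsCoprime P (P + Q) := h.of_mul_left_left
  have h2 : IsCoprime P (Q + P * 1) := by
    have e : Q + P * 1 = P + Q := by ring
    rw [e]; exact h1
  exact h2.of_add_mul_left_right

theorem h40_sq_of_cop {a b c : ℤ} (ha : 0 < a) (h : IsCoprime a b) (heq : a * b = c ^ 2) :
    ∃ s : ℤ, a = s ^ 2 := by
  obtain ⟨s, hs | hs⟩ := Int.sq_of_gcd_eq_one (Int.isCoprime_iff_gcd_eq_one.mp h) heq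
  · exact ⟨s, hs⟩
  · exfalso; nlinarith [sq_nonneg s]

theorem h40_five_split {u v n : ℤ} (hn : n ≠ 0) (h : u * v = 5 * n^2) (hg : IsCoprime u v) :
    ∃ r r' : ℤ, (u = r^2 ∧ v = 5 * r'^2) ∨ (u = 5 * r^2 ∧ v = r'^2) ∨
      (u = -r^2 ∧ v = -(5 * r'^2)) ∨ (u = -(5 * r^2) ∧ v = -r'^2) := by
  have p5 := h40_prime_five
  have hnpos : 0 < n^2 := by positivity
  have h5 : (5:ℤ) ∣ u * v := ⟨n^2, h⟩
  rcases p5.dvd_or_dvd h5 with ⟨u', rfl⟩ | ⟨v', rfl⟩
  · have h' : u' * v = n^2 := by linarith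
    have hg' : IsCoprime u' v := hg.of_mul_left_right
    obtain ⟨r, hr | hr⟩ := Int.sq_of_gcd_eq_one (Int.isCoprime_iff_gcd_eq_one.mp hg') h'
    · obtain ⟨r', hr' | hr'⟩ := Int.sq_of_gcd_eq_one (Int.isCoprime_iff_gcd_eq_one.mp hg'.symm)
        (by rw [mul_comm]; exact h')
      · exact ⟨r, r', Or.inr (Or.inl ⟨by rw [hr], hr'⟩)⟩
      · exfalso
        have : n^2 = -(r * r')^2 := by rw [← h', hr, hr']; ring
        nlinarith [sq_nonneg (r * r')]
    · obtain ⟨r', hr' | hr'⟩ := Int.sq_of_gcd_eq_one (Int.isCoprime_iff_gcd_eq_one.mp hg'.symm)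
        (by rw [mul_comm]; exact h')
      · exfalso
        have : n^2 = -(r * r')^2 := by rw [← h', hr, hr']; ring
        nlinarith [sq_nonneg (r * r')]
      · exact ⟨r, r', Or.inr (Or.inr (Or.inr ⟨by rw [hr]; ring, hr'⟩))⟩
  · have h' : u * v' = n^2 := by linarith
    have hg' : IsCoprime u v' := hg.of_mul_right_right
    obtain ⟨r, hr | hr⟩ := Int.sq_of_gcd_eq_one (Int.isCoprime_iff_gcd_eq_one.mp hg') h'
    · obtain ⟨r', hr' | hr'⟩ := Int.sq_of_gcd_eq_one (Int.isCoprime_iff_gcd_eq_one.mp hg'.symm)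
        (by rw [mul_comm]; exact h')
      · exact ⟨r, r', Or.inl ⟨hr, by rw [hr']⟩⟩
      · exfalso
        have : n^2 = -(r * r')^2 := by rw [← h', hr, hr']; ring
        nlinarith [sq_nonneg (r * r')]
    · obtain ⟨r', hr' | hr'⟩ := Int.sq_of_gcd_eq_one (Int.isCoprime_iff_gcd_eq_one.mp hg'.symm)
        (by rw [mul_comm]; exact h')
      · exfalso
        have : n^2 = -(r * r')^2 := by rw [← h', hr, hr']; ring
        nlinarith [sq_nonneg (r * r')]
      · exact ⟨r, r', Or.inr (Or.inr (Or.inl ⟨hr, by rw [hr']; ring⟩))⟩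

theorem h40_core {M N A B : ℤ} (hM : 0 < M) (hN : N ≠ 0) (hcop : IsCoprime M N)
    (h1 : M^2 - N^2 = A^2) (h2 : M^2 - 81 * N^2 = B^2) :
    ∃ A' B' k1 k2 k3 : ℤ, A'^2 = A^2 ∧ B'^2 = B^2 ∧ (M + A') * (M + B') = k1^2 ∧
      (M + A') * (A' + B') = k2^2 ∧ (M + B') * (A' + B') = k3^2 := by
  obtain ⟨hM2, h4⟩ := h40_parity hcop h1 h2
  have h3 := h40_three hcop h1
  have h5 := h40_five hcop h1 h2
  have hNA := h40_cop_NA hcop h1
  have hN2 : 0 < N^2 := by positivity
  have hA_lt : A^2 < M^2 := by linarith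
  have hB_lt : B^2 < M^2 := by linarith
  have habsA := abs_lt.mp (abs_lt_of_sq_lt_sq hA_lt hM.le)
  have habsB := abs_lt.mp (abs_lt_of_sq_lt_sq hB_lt hM.le)
  have hpa : 0 < M + A := by linarith [habsA.1]
  have hma : 0 < M - A := by linarith [habsA.2]
  have hpb : 0 < M + B := by linarith [habsB.1]
  have hmb : 0 < M - B := by linarith [habsB.2]
  have c3M : IsCoprime (3:ℤ) M := (Int.prime_three.irreducible.coprime_iff_not_dvd).mpr h3
  have c2M : IsCoprime (2:ℤ) M := (Int.prime_two.irreducible.coprime_iff_not_dvd).mpr hM2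
  have c9M : IsCoprime (9:ℤ) M := by
    have := c3M.pow_left (m := 2)
    norm_num at this; exact this
  by_cases hNpar : (2:ℤ) ∣ N
  · -- N even
    obtain ⟨N', rfl⟩ := hNpar
    have hN'M : IsCoprime N' M := (IsCoprime.of_mul_right_right hcop).symm
    have hN'A : IsCoprime N' A := IsCoprime.of_mul_left_right hNA
    have hAodd : ¬ (2:ℤ) ∣ A := by
      rintro ⟨a, rfl⟩
      apply hM2
      have : (2:ℤ) ∣ M^2 := ⟨2 * a^2 + 2 * N'^2, by linear_combination h1⟩
      exact Int.prime_two.dvd_of_dvd_pow this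
    have hBodd : ¬ (2:ℤ) ∣ B := by
      rintro ⟨b, rfl⟩
      apply hM2
      have : (2:ℤ) ∣ M^2 := ⟨2 * b^2 + 162 * N'^2, by linear_combination h2⟩
      exact Int.prime_two.dvd_of_dvd_pow this
    have c2A : IsCoprime (2:ℤ) A := (Int.prime_two.irreducible.coprime_iff_not_dvd).mpr hAodd
    obtain ⟨P, hP⟩ : (2:ℤ) ∣ M + A := by omega
    obtain ⟨Q, hQ⟩ : (2:ℤ) ∣ M - A := by omega
    have ePQ4 : 4 * (P * Q) = 4 * N'^2 := by
      linear_combination h1 - (M - A) * hP - 2 * P * hQ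
    have ePQ : P * Q = N'^2 := by linarith
    have sPQ : P + Q = M := by linarith
    have cPQ : IsCoprime P Q := by
      apply h40_cop_of_mul_add; rw [ePQ, sPQ]; exact hN'M.pow_left
    obtain ⟨s, hs⟩ := h40_sq_of_cop (by linarith : 0 < P) cPQ ePQ
    obtain ⟨t, ht⟩ := h40_sq_of_cop (by linarith : 0 < Q) cPQ.symm (by rw [mul_comm]; exact ePQ)
    obtain ⟨R, hR⟩ : (2:ℤ) ∣ M + B := by omega
    obtain ⟨S, hS⟩ : (2:ℤ) ∣ M - B := by omega
    have eRS4 : 4 * (R * S) = 4 * (9 * N')^2 := by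
      linear_combination h2 - (M - B) * hR - 2 * R * hS
    have eRS : R * S = (9 * N')^2 := by linarith
    have sRS : R + S = M := by linarith
    have cRS : IsCoprime R S := by
      apply h40_cop_of_mul_add; rw [eRS, sRS]
      exact (IsCoprime.mul_left c9M hN'M).pow_left
    obtain ⟨s', hs'⟩ := h40_sq_of_cop (by linarith : 0 < R) cRS eRS
    obtain ⟨t', ht'⟩ := h40_sq_of_cop (by linarith : 0 < S) cRS.symm (by rw [mul_comm]; exact eRS)
    obtain ⟨u, hu⟩ : (2:ℤ) ∣ A + B := by omega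
    obtain ⟨v, hv⟩ : (2:ℤ) ∣ A - B := by omega
    have euv4 : 4 * (u * v) = 4 * (5 * (4 * N')^2) := by
      linear_combination h2 - h1 - (A - B) * hu - 2 * u * hv
    have euv : u * v = 5 * (4 * N')^2 := by linarith
    have suv : u + v = A := by linarith
    have cuv : IsCoprime u v := by
      apply h40_cop_of_mul_add; rw [euv, suv]
      have c5A : IsCoprime (5:ℤ) A := (h40_prime_five.irreducible.coprime_iff_not_dvd).mpr h5
      have c4A : IsCoprime (4:ℤ) A := by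
        have := c2A.pow_left (m := 2)
        norm_num at this; exact this
      exact IsCoprime.mul_left c5A ((IsCoprime.mul_left c4A hN'A).pow_left)
    have hN'0 : 4 * N' ≠ 0 := by
      intro h0; apply hN; linarith
    obtain ⟨r, r', hcase⟩ := h40_five_split hN'0 euv cuv
    rcases hcase with ⟨hu', hv'⟩ | ⟨hu', hv'⟩ | ⟨hu', hv'⟩ | ⟨hu', hv'⟩
    · -- A + B = 2 r^2
      refine ⟨A, B, 2 * s * s', 2 * s * r, 2 * s' * r, rfl, rfl, ?_, ?_, ?_⟩
      · rw [hP, hR, hs, hs']; ring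
      · rw [hP, hu, hs, hu']; ring
      · rw [hR, hu, hs', hu']; ring
    · -- A - B = 2 r'^2
      refine ⟨A, -B, 2 * s * t', 2 * s * r', 2 * t' * r', rfl, by ring, ?_, ?_, ?_⟩
      · have e : M + -B = M - B := by ring
        rw [e, hP, hS, hs, ht']; ring
      · have e : A + -B = A - B := by ring
        rw [e, hP, hv, hs, hv']; ring
      · have e : M + -B = M - B := by ring
        have e' : A + -B = A - B := by ring
        rw [e, e', hS, hv, ht', hv']; ring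
    · -- A + B = -2 r^2
      refine ⟨-A, -B, 2 * t * t', 2 * t * r, 2 * t' * r, by ring, by ring, ?_, ?_, ?_⟩
      · have e : M + -A = M - A := by ring
        have e' : M + -B = M - B := by ring
        rw [e, e', hQ, hS, ht, ht']; ring
      · have e : M + -A = M - A := by ring
        have e' : -A + -B = -(A + B) := by ring
        rw [e, e', hQ, hu, ht, hu']; ring
      · have e : M + -B = M - B := by ring
        have e' : -A + -B = -(A + B) := by ring
        rw [e, e', hS, hu, ht', hu']; ring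
    · -- A - B = -2 r'^2
      refine ⟨-A, B, 2 * t * s', 2 * t * r', 2 * s' * r', by ring, rfl, ?_, ?_, ?_⟩
      · have e : M + -A = M - A := by ring
        rw [e, hQ, hR, ht, hs']; ring
      · have e : M + -A = M - A := by ring
        have e' : -A + B = -(A - B) := by ring
        rw [e, e', hQ, hv, ht, hv']; ring
      · have e' : -A + B = -(A - B) := by ring
        rw [e', hR, hv, hs', hv']; ring
  · -- N odd
    obtain ⟨hA4, hB4⟩ := h4 hNpar
    have c2N : IsCoprime (2:ℤ) N := (Int.prime_two.irreducible.coprime_iff_not_dvd).mpr hNpar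
    have cN2M : IsCoprime N (2 * M) := IsCoprime.mul_right c2N.symm hcop.symm
    have ePQ : (M + A) * (M - A) = N^2 := by linear_combination h1
    have cPQ : IsCoprime (M + A) (M - A) := by
      apply h40_cop_of_mul_add
      have e2 : (M + A) + (M - A) = 2 * M := by ring
      rw [ePQ, e2]
      exact cN2M.pow_left
    obtain ⟨s, hs⟩ := h40_sq_of_cop hpa cPQ ePQ
    obtain ⟨t, ht⟩ := h40_sq_of_cop hma cPQ.symm (by rw [mul_comm]; exact ePQ)
    have eRS : (M + B) * (M - B) = (9 * N)^2 := by linear_combination h2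
    have cRS : IsCoprime (M + B) (M - B) := by
      apply h40_cop_of_mul_add
      have e2 : (M + B) + (M - B) = 2 * M := by ring
      rw [eRS, e2]
      have c92 : IsCoprime (9:ℤ) 2 := by norm_num
      exact (IsCoprime.mul_left (IsCoprime.mul_right c92 c9M) cN2M).pow_left
    obtain ⟨s', hs'⟩ := h40_sq_of_cop hpb cRS eRS
    obtain ⟨t', ht'⟩ := h40_sq_of_cop hmb cRS.symm (by rw [mul_comm]; exact eRS)
    obtain ⟨A1, rfl⟩ := hA4
    obtain ⟨B1, rfl⟩ := hB4
    have euv : (A1 + B1) * (A1 - B1) = 5 * N^2 := by linarith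
    have cuv : IsCoprime (A1 + B1) (A1 - B1) := by
      apply h40_cop_of_mul_add
      have e2 : (A1 + B1) + (A1 - B1) = 2 * A1 := by ring
      rw [euv, e2]
      have c5A : IsCoprime (5:ℤ) A1 := by
        refine (h40_prime_five.irreducible.coprime_iff_not_dvd).mpr ?_
        intro h; exact h5 (Dvd.dvd.mul_left h 4)
      have c52 : IsCoprime (5:ℤ) 2 := ⟨1, -2, by norm_num⟩
      have cNA1 : IsCoprime N A1 := hNA.of_mul_right_right
      exact IsCoprime.mul_left (IsCoprime.mul_right c52 c5A)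
        ((IsCoprime.mul_right c2N.symm cNA1).pow_left)
    obtain ⟨r, r', hcase⟩ := h40_five_split hN euv cuv
    have hmA : M - 4 * A1 = t^2 := ht
    have hmB : M - 4 * B1 = t'^2 := ht'
    rcases hcase with ⟨hu', hv'⟩ | ⟨hu', hv'⟩ | ⟨hu', hv'⟩ | ⟨hu', hv'⟩
    · -- A1 + B1 = r^2
      refine ⟨4 * A1, 4 * B1, s * s', 2 * s * r, 2 * s' * r, rfl, rfl, ?_, ?_, ?_⟩
      · rw [hs, hs']; ring
      · have e : 4 * A1 + 4 * B1 = 4 * (A1 + B1) := by ring
        rw [e, hs, hu']; ring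
      · have e : 4 * A1 + 4 * B1 = 4 * (A1 + B1) := by ring
        rw [e, hs', hu']; ring
    · -- A1 - B1 = r'^2
      refine ⟨4 * A1, -(4 * B1), s * t', 2 * s * r', 2 * t' * r', rfl, by ring, ?_, ?_, ?_⟩
      · have e : M + -(4 * B1) = M - 4 * B1 := by ring
        rw [e, hs, hmB]; ring
      · have e : 4 * A1 + -(4 * B1) = 4 * (A1 - B1) := by ring
        rw [e, hs, hv']; ring
      · have e : M + -(4 * B1) = M - 4 * B1 := by ring
        have e' : 4 * A1 + -(4 * B1) = 4 * (A1 - B1) := by ring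
        rw [e, e', hmB, hv']; ring
    · -- A1 + B1 = -r^2
      refine ⟨-(4 * A1), -(4 * B1), t * t', 2 * t * r, 2 * t' * r, by ring, by ring, ?_, ?_, ?_⟩
      · have e : M + -(4 * A1) = M - 4 * A1 := by ring
        have e' : M + -(4 * B1) = M - 4 * B1 := by ring
        rw [e, e', hmA, hmB]; ring
      · have e : M + -(4 * A1) = M - 4 * A1 := by ring
        have e' : -(4 * A1) + -(4 * B1) = -4 * (A1 + B1) := by ring
        rw [e, e', hmA, hu']; ring
      · have e : M + -(4 * B1) = M - 4 * B1 := by ring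
        have e' : -(4 * A1) + -(4 * B1) = -4 * (A1 + B1) := by ring
        rw [e, e', hmB, hu']; ring
    · -- A1 - B1 = -r'^2
      refine ⟨-(4 * A1), 4 * B1, t * s', 2 * t * r', 2 * s' * r', by ring, rfl, ?_, ?_, ?_⟩
      · have e : M + -(4 * A1) = M - 4 * A1 := by ring
        rw [e, hmA, hs']; ring
      · have e : M + -(4 * A1) = M - 4 * A1 := by ring
        have e' : -(4 * A1) + 4 * B1 = -4 * (A1 - B1) := by ring
        rw [e, e', hmA, hv']; ring
      · have e' : -(4 * A1) + 4 * B1 = -4 * (A1 - B1) := by ring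
        rw [e', hs', hv']; ring

theorem h40_no_sol : ∀ n : ℕ, 0 < n → ∀ M A B : ℤ,
    M^2 - (n:ℤ)^2 = A^2 → M^2 - 81 * (n:ℤ)^2 = B^2 → False := by
  intro n
  induction n using Nat.strong_induction_on with
  | _ n ih =>
  intro hn
  have hnZ : (n:ℤ) ≠ 0 := by exact_mod_cast hn.ne'
  have hnZ2 : (0:ℤ) < (n:ℤ)^2 := by positivity
  -- non-primitive solutions reduce to smaller `n`
  have red : ∀ M A B : ℤ, M^2 - (n:ℤ)^2 = A^2 → M^2 - 81 * (n:ℤ)^2 = B^2 →
      ¬ IsCoprime M (n:ℤ) → False := by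
    intro M A B h1 h2 hnc
    have hg : Int.gcd M (n:ℤ) ≠ 1 := fun h => hnc (Int.isCoprime_iff_gcd_eq_one.mpr h)
    obtain ⟨p, hp, hpg⟩ := Nat.exists_prime_and_dvd hg
    have hpM : (p:ℤ) ∣ M := (Int.natCast_dvd_natCast.mpr hpg).trans (Int.gcd_dvd_left M n)
    have hpn : (p:ℤ) ∣ (n:ℤ) := (Int.natCast_dvd_natCast.mpr hpg).trans (Int.gcd_dvd_right M n)
    obtain ⟨M', rfl⟩ := hpM
    obtain ⟨n', rfl⟩ := Int.natCast_dvd_natCast.mp hpn
    have hp0 : (p:ℤ) ≠ 0 := by exact_mod_cast hp.ne_zero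
    have hpA : (p:ℤ) ∣ A := by
      have : (p:ℤ)^2 ∣ A^2 := ⟨M'^2 - (n':ℤ)^2, by rw [← h1]; push_cast; ring⟩
      exact (Int.pow_dvd_pow_iff two_ne_zero).mp this
    have hpB : (p:ℤ) ∣ B := by
      have : (p:ℤ)^2 ∣ B^2 := ⟨M'^2 - 81 * (n':ℤ)^2, by rw [← h2]; push_cast; ring⟩
      exact (Int.pow_dvd_pow_iff two_ne_zero).mp this
    obtain ⟨A', rfl⟩ := hpA
    obtain ⟨B', rfl⟩ := hpB
    have hn'pos : 0 < n' := by
      rcases Nat.eq_zero_or_pos n' with h | h
      · subst h; simp at hn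
      · exact h
    have hlt : n' < p * n' := by
      have := hp.two_le; nlinarith
    apply ih n' hlt hn'pos M' A' B'
    · have h1' : (p:ℤ)^2 * (M'^2 - (n':ℤ)^2) = (p:ℤ)^2 * A'^2 := by
        have := h1; push_cast at this; linear_combination this
      exact mul_left_cancel₀ (pow_ne_zero 2 hp0) h1'
    · have h2' : (p:ℤ)^2 * (M'^2 - 81 * (n':ℤ)^2) = (p:ℤ)^2 * B'^2 := by
        have := h2; push_cast at this; linear_combination this
      exact mul_left_cancel₀ (pow_ne_zero 2 hp0) h2'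
  intro M A B h1 h2
  by_cases hcop : IsCoprime M (n:ℤ)
  · have hM0 : M ≠ 0 := by
      rintro rfl
      nlinarith [sq_nonneg A]
    have habsM : 0 < |M| := abs_pos.mpr hM0
    have hcop' : IsCoprime |M| (n:ℤ) := by
      rcases abs_choice M with h | h <;> rw [h]
      · exact hcop
      · exact hcop.neg_left
    have h1' : |M|^2 - (n:ℤ)^2 = A^2 := by rw [sq_abs]; exact h1
    have h2' : |M|^2 - 81 * (n:ℤ)^2 = B^2 := by rw [sq_abs]; exact h2
    obtain ⟨A', B', k1, k2, k3, hA', hB', e1, e2, e3⟩ := h40_core habsM hnZ hcop' h1' h2'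
    generalize |M| = M0 at *
    have ha : (n:ℤ)^2 = M0^2 - A'^2 := by rw [hA']; linarith
    have hb : 81 * (n:ℤ)^2 = M0^2 - B'^2 := by rw [hB']; linarith
    have n1 : k1^2 - (n:ℤ)^2 = k2^2 := by
      rw [← e1, ← e2, ha]; ring
    have n2 : k1^2 - 81 * (n:ℤ)^2 = k3^2 := by
      rw [← e1, ← e3, hb]; ring
    by_cases hcop2 : IsCoprime k1 (n:ℤ)
    · have hdiv : k1^2 ∣ 81 * (n:ℤ)^4 := by
        refine ⟨k1^2 - 2 * M0 * (A' + B'), ?_⟩
        calc 81 * (n:ℤ)^4 = (n:ℤ)^2 * (81 * (n:ℤ)^2) := by ring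
          _ = (M0^2 - A'^2) * (M0^2 - B'^2) := by rw [hb, ha]
          _ = ((M0 + A') * (M0 + B')) * ((M0 + A') * (M0 + B') - 2 * M0 * (A' + B')) := by ring
          _ = k1^2 * (k1^2 - 2 * M0 * (A' + B')) := by rw [e1]
      have hk81 : k1^2 ∣ 81 := (hcop2.pow (m := 2) (n := 4)).dvd_of_dvd_mul_right hdiv
      have h3k : ¬ (3:ℤ) ∣ k1 := h40_three hcop2 n1
      have c3 : IsCoprime k1 3 := ((Int.prime_three.irreducible.coprime_iff_not_dvd).mpr h3k).symm
      have hk1 : k1^2 ∣ 1 := by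
        have c : IsCoprime (k1^2) (81:ℤ) := by
          have := c3.pow (m := 2) (n := 4); norm_num at this; exact this
        have h' : k1^2 ∣ 1 * 81 := by simpa using hk81
        exact c.dvd_of_dvd_mul_right h'
      have hk1' : k1^2 = 1 := by
        have h0 : 0 ≤ k1^2 := sq_nonneg k1
        have hle := Int.le_of_dvd one_pos hk1
        have hk1ne : k1 ≠ 0 := by
          rintro rfl; simp at hk1
        have hpos : 0 < k1^2 := by positivity
        omega
      have hn1 : (n:ℤ)^2 ≤ 1 := by nlinarith [sq_nonneg k2]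
      have hn1' : (1:ℤ) ≤ (n:ℤ)^2 := by
        have : (1:ℤ) ≤ n := by exact_mod_cast hn
        nlinarith
      nlinarith [sq_nonneg k3]
    · exact red k1 k2 k3 n1 n2 hcop2
  · exact red M A B h1 h2 hcop

/-- No rational point in the all-squares class of `Y^2 = X (X-1) (X-81)`. -/
theorem h40_no_rat (U V W : ℚ) (h1 : U^2 - 1 = V^2) (h2 : U^2 - 81 = W^2) : False := by
  have hnpos : 0 < U.den * V.den * W.den := by positivity
  have hU : (U.num : ℚ) = U * U.den := (Rat.mul_den_eq_num U).symm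
  have hV : (V.num : ℚ) = V * V.den := (Rat.mul_den_eq_num V).symm
  have hW : (W.num : ℚ) = W * W.den := (Rat.mul_den_eq_num W).symm
  apply h40_no_sol (U.den * V.den * W.den) hnpos (U.num * V.den * W.den) (V.num * U.den * W.den)
    (W.num * U.den * V.den)
  · have : (((U.num * V.den * W.den)^2 - ((U.den * V.den * W.den : ℕ) : ℤ)^2 : ℤ) : ℚ)
        = (((V.num * U.den * W.den)^2 : ℤ) : ℚ) := by
      push_cast
      rw [hU, hV]
      linear_combination ((U.den : ℚ) * V.den * W.den)^2 * h1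
    exact_mod_cast this
  · have : (((U.num * V.den * W.den)^2 - 81 * ((U.den * V.den * W.den : ℕ) : ℤ)^2 : ℤ) : ℚ)
        = (((W.num * U.den * V.den)^2 : ℤ) : ℚ) := by
      push_cast
      rw [hU, hW]
      linear_combination ((U.den : ℚ) * V.den * W.den)^2 * h2
    exact_mod_cast this

/-- Rational points of `y^2 = x (x+9) (x-16)` (15a1): only the torsion points. -/
theorem h40_descent_15a (x y : ℚ) (h : y^2 = x*(x+9)*(x-16)) : y = 0 ∨ x = 36 ∨ x = -4 := by
  by_contra hcon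
  obtain ⟨hy, hx1, hx2⟩ : y ≠ 0 ∧ x ≠ 36 ∧ x ≠ -4 :=
    ⟨fun h0 => hcon (Or.inl h0), fun h0 => hcon (Or.inr (Or.inl h0)),
      fun h0 => hcon (Or.inr (Or.inr h0))⟩
  have hx2' : x + 4 ≠ 0 := fun h0 => hx2 (by linarith)
  have hw0 : (x - 36) * (x + 4) ≠ 0 := mul_ne_zero (sub_ne_zero.mpr hx1) hx2'
  have h2y : 2 * y ≠ 0 := mul_ne_zero two_ne_zero hy
  obtain ⟨u, hu⟩ : ∃ u : ℚ, u = (x^2 + 144) / (2*y) := ⟨_, rfl⟩
  obtain ⟨v, hv⟩ : ∃ v : ℚ, v = (x^2 + 18*x - 144) / (2*y) := ⟨_, rfl⟩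
  obtain ⟨w, hw⟩ : ∃ w : ℚ, w = (x - 36) * (x + 4) / (2*y) := ⟨_, rfl⟩
  have hwne : w ≠ 0 := by rw [hw]; exact div_ne_zero hw0 h2y
  have huv : u^2 + 9 = v^2 := by
    rw [hu, hv]; field_simp; linear_combination 36 * h
  have huw : u^2 - 16 = w^2 := by
    rw [hu, hw]; field_simp; linear_combination (-64) * h
  apply h40_no_rat (u * v / w) ((u^2 + 4) / w) ((u^2 - 36) / w)
  · field_simp; linear_combination (-u^2) * huv + huw
  · field_simp; linear_combination (-u^2) * huv + 81 * huw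

end Fermat.Agent.S51
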