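import Mathlib
import Fermat.Prelude.Def_FLTPrelim_Modularity

set_option autoImplicit false

namespace Fermat.Agent.S51

/-- The two `ℚ`-algebra structures on `AlgebraicClosure ℚ` agree (instance diamond). -/
theorem h65_algebra_eq : (DivisionRing.toRatAlgebra : Algebra ℚ (AlgebraicClosure ℚ)) =
    AlgebraicClosure.instAlgebra ℚ := Subsingleton.elim _ _

theorem h65_isAlgebraic : Algebra.IsAlgebraic ℚ (AlgebraicClosure ℚ) := by
  have h : @Algebra.IsAlgebraic ℚ (AlgebraicClosure ℚ) _ _ (AlgebraicClosure.instAlgebra ℚ) :=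
    AlgebraicClosure.isAlgebraic ℚ
  rw [← h65_algebra_eq] at h
  exact h

theorem h65_isAlgClosure : IsAlgClosure ℚ (AlgebraicClosure ℚ) :=
  ⟨inferInstance, h65_isAlgebraic⟩

theorem h65_isGalois : IsGalois ℚ (AlgebraicClosure ℚ) :=
  have := h65_isAlgClosure
  IsAlgClosure.isGalois ℚ (AlgebraicClosure ℚ)

/-- (L2) An element of `AlgebraicClosure ℚ` fixed by the whole Galois group is rational. -/
theorem h65_mem_range_of_fixed (x : AlgebraicClosure ℚ)
    (h : ∀ σ : AlgebraicClosure ℚ ≃ₐ[ℚ] AlgebraicClosure ℚ, σ x = x) :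
    ∃ r : ℚ, algebraMap ℚ (AlgebraicClosure ℚ) r = x := by
  have := h65_isGalois
  exact (InfiniteGalois.mem_range_algebraMap_iff_fixed (k := ℚ) (K := AlgebraicClosure ℚ) x).mpr h

/-- Helper: if `c ^ 3 * d = n * Δ` in `ℤ` with `gcd(c, Δ) = 1`-type hypothesis (no prime divides
both `Δ` and `c`) and `IsCoprime n d`, then `c ^ 3` and `n` are associated. -/
theorem h65_cube_assoc {c Δ n d : ℤ}
    (hcop : ∀ p : ℕ, p.Prime → (p : ℤ) ∣ Δ → ¬ (p : ℤ) ∣ c)
    (hnd : IsCoprime n d) (h : c ^ 3 * d = n * Δ) : Associated (c ^ 3) n := by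
  have hcΔ : IsCoprime c Δ := by
    rw [Int.isCoprime_iff_gcd_eq_one]
    by_contra hne
    obtain ⟨p, hp, hpd⟩ := Nat.exists_prime_and_dvd hne
    have h1 : (p : ℤ) ∣ c := Int.natCast_dvd.mpr (hpd.trans (Nat.gcd_dvd_left _ _))
    have h2 : (p : ℤ) ∣ Δ := Int.natCast_dvd.mpr (hpd.trans (Nat.gcd_dvd_right _ _))
    exact hcop p hp h2 h1
  have hc3Δ : IsCoprime (c ^ 3) Δ := hcΔ.pow_left
  -- c^3 ∣ n * Δ, coprime to Δ, so c^3 ∣ n
  have h1 : c ^ 3 ∣ n := by
    have : c ^ 3 ∣ n * Δ := ⟨d, h.symm⟩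
    exact hc3Δ.dvd_of_dvd_mul_right this
  -- n ∣ c^3 * d, coprime to d, so n ∣ c^3
  have h2 : n ∣ c ^ 3 := by
    have : n ∣ c ^ 3 * d := ⟨Δ, h⟩
    exact hnd.dvd_of_dvd_mul_right this
  exact associated_of_dvd_dvd h1 h2

theorem h65_not_cube_of_between {n c : ℤ} (k : ℤ) (h1 : k ^ 3 < n) (h2 : n < (k + 1) ^ 3) :
    c ^ 3 ≠ n := by
  intro h
  rcases le_or_gt c k with hc | hc
  · have : c ^ 3 ≤ k ^ 3 := by
      have := Odd.strictMono_pow (R := ℤ) (n := 3) (by decide)
      exact this.monotone hc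
    omega
  · have : (k + 1) ^ 3 ≤ c ^ 3 := by
      have := Odd.strictMono_pow (R := ℤ) (n := 3) (by decide)
      exact this.monotone (by omega)
    omega

theorem h65_not_assoc_cube {n c : ℤ} (k : ℤ) (h1 : k ^ 3 < n) (h2 : n < (k + 1) ^ 3) :
    ¬ Associated (c ^ 3) n := by
  intro h
  rcases Int.associated_iff.mp h with h | h
  · exact h65_not_cube_of_between k h1 h2 h
  · have : (-c) ^ 3 = n := by rw [Odd.neg_pow (by decide)]; omega
    exact h65_not_cube_of_between k h1 h2 this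

/-- (L6) The `j`-invariant `c₄³/Δ` of a semistable integral model is none of the four exceptional
values coming from the non-cuspidal rational points of `X₀(15)`. -/
theorem h65_j_not_exceptional (W : WeierstrassCurve ℤ) (hΔ : W.Δ ≠ 0) (hss : W.IsSemistableModel)
    (j : ℚ) (hj : (W.c₄ : ℚ) ^ 3 = j * (W.Δ : ℚ)) :
    j ≠ -25 / 2 ∧ j ≠ -349938025 / 8 ∧ j ≠ -121945 / 32 ∧ j ≠ 46969655 / 32768 := by
  have hcop : ∀ p : ℕ, p.Prime → (p : ℤ) ∣ W.Δ → ¬ (p : ℤ) ∣ W.c₄ := hss
  have key : ∀ (n d : ℤ), IsCoprime n d → d ≠ 0 → j = (n : ℚ) / (d : ℚ) →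
      Associated (W.c₄ ^ 3) n := by
    intro n d hnd hd hjn
    have hdq : (d : ℚ) ≠ 0 := by exact_mod_cast hd
    have h : W.c₄ ^ 3 * d = n * W.Δ := by
      have : ((W.c₄ ^ 3 * d : ℤ) : ℚ) = ((n * W.Δ : ℤ) : ℚ) := by
        push_cast
        rw [hj, hjn]
        field_simp
      exact_mod_cast this
    exact h65_cube_assoc hcop hnd h
  refine ⟨?_, ?_, ?_, ?_⟩
  · intro hj1
    have h := key (-25) 2 (by rw [Int.isCoprime_iff_gcd_eq_one]; decide) (by norm_num)
      (by rw [hj1]; norm_num)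
    have h' : Associated (W.c₄ ^ 3) 25 := h.trans (Int.associated_iff.mpr (Or.inr (by norm_num)))
    exact h65_not_assoc_cube 2 (by norm_num) (by norm_num) h'
  · intro hj1
    have h := key (-349938025) 8 (by rw [Int.isCoprime_iff_gcd_eq_one]; decide) (by norm_num)
      (by rw [hj1]; norm_num)
    have h' : Associated (W.c₄ ^ 3) 349938025 :=
      h.trans (Int.associated_iff.mpr (Or.inr (by norm_num)))
    exact h65_not_assoc_cube 704 (by norm_num) (by norm_num) h'
  · intro hj1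
    have h := key (-121945) 32 (by rw [Int.isCoprime_iff_gcd_eq_one]; decide) (by norm_num)
      (by rw [hj1]; norm_num)
    have h' : Associated (W.c₄ ^ 3) 121945 :=
      h.trans (Int.associated_iff.mpr (Or.inr (by norm_num)))
    exact h65_not_assoc_cube 49 (by norm_num) (by norm_num) h'
  · intro hj1
    have h := key 46969655 32768 (by rw [Int.isCoprime_iff_gcd_eq_one]; decide) (by norm_num)
      (by rw [hj1]; norm_num)
    exact h65_not_assoc_cube 360 (by norm_num) (by norm_num) h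

end Fermat.Agent.S51
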