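import Mathlib
import Fermat.Statements.S51
import Fermat.Agent.S51.Core
import Fermat.Agent.S51.Helper40Descent
import Fermat.Agent.S51.Helper65Glue

set_option autoImplicit false

namespace Fermat.Agent.S51

open WeierstrassCurve

theorem descent15 : Descent15 := fun x y h => h40_descent_15a x y h

/-- Conversion of the duplication relations of a point of order five (general Weierstrass
form, `b`-invariants) into the two symmetric relations in short form. -/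
theorem five_short {K : Type*} [Field K] [CharZero K] (b2 b4 b6 b8 u v A B S1 S2 : K)
    (hb : 4 * b8 = b2 * b6 - b4 ^ 2)
    (hA : A = -(b2 ^ 2 - 24 * b4) / 48)
    (hB : B = -(-b2 ^ 3 + 36 * b2 * b4 - 216 * b6) / 864)
    (hS1 : S1 = u + v + b2 / 6) (hS2 : S2 = (u + b2 / 12) * (v + b2 / 12)) (huv : u ≠ v)
    (R1 : v * (4 * u ^ 3 + b2 * u ^ 2 + 2 * b4 * u + b6)
      = u ^ 4 - b4 * u ^ 2 - 2 * b6 * u - b8)
    (R2 : u * (4 * v ^ 3 + b2 * v ^ 2 + 2 * b4 * v + b6)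
      = v ^ 4 - b4 * v ^ 2 - 2 * b6 * v - b8) :
    4 * B = S1 * (S1 ^ 2 - 6 * S2 - 2 * A) ∧
      A ^ 2 + 2 * A * (S1 ^ 2 - S2) - S1 ^ 4 + 5 * S1 ^ 2 * S2 + 5 * S2 ^ 2 = 0 := by
  have hT : (u - v) * (4 * B - S1 * (S1 ^ 2 - 6 * S2 - 2 * A)) = 0 := by
    rw [hA, hB, hS1, hS2]
    linear_combination R1 - R2
  have hT' : 4 * B - S1 * (S1 ^ 2 - 6 * S2 - 2 * A) = 0 := by
    rcases mul_eq_zero.mp hT with h | h
    · exact absurd (sub_eq_zero.mp h) huv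
    · exact h
  refine ⟨by linear_combination hT', ?_⟩
  have hIII : A ^ 2 + 2 * A * (S1 ^ 2 - S2) - S1 ^ 4 + 5 * S1 ^ 2 * S2 + 5 * S2 ^ 2
      = (3 / 2) * S1 * (4 * B - S1 * (S1 ^ 2 - 6 * S2 - 2 * A))
        - (1 / 2) * (v * (4 * u ^ 3 + b2 * u ^ 2 + 2 * b4 * u + b6)
            - (u ^ 4 - b4 * u ^ 2 - 2 * b6 * u - b8))
        - (1 / 2) * (u * (4 * v ^ 3 + b2 * v ^ 2 + 2 * b4 * v + b6)
            - (v ^ 4 - b4 * v ^ 2 - 2 * b6 * v - b8))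
        + (1 / 4) * (4 * b8 - (b2 * b6 - b4 ^ 2)) := by
    rw [hA, hB, hS1, hS2]
    ring
  rw [hIII, hT', R1, R2, hb]
  ring

/-- The semistable contradiction: rational `3`-isogeny data and rational `5`-isogeny data
cannot coexist on a semistable integral model. -/
theorem semistable_false (W : WeierstrassCurve ℤ) (hΔ : W.Δ ≠ 0) (hW : W.IsSemistableModel)
    (w₀ : ℚ)
    (hw₀ : 3 * w₀ ^ 4 + (W.b₂ : ℚ) * w₀ ^ 3 + 3 * (W.b₄ : ℚ) * w₀ ^ 2 + 3 * (W.b₆ : ℚ) * w₀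
      + (W.b₈ : ℚ) = 0)
    (s₁ s₂ : ℚ) (u v : AlgebraicClosure ℚ) (huv : u ≠ v)
    (hs₁ : u + v = algebraMap ℚ (AlgebraicClosure ℚ) s₁)
    (hs₂ : u * v = algebraMap ℚ (AlgebraicClosure ℚ) s₂)
    (R1 : v * (4 * u ^ 3 + (W.b₂ : AlgebraicClosure ℚ) * u ^ 2
          + 2 * (W.b₄ : AlgebraicClosure ℚ) * u + (W.b₆ : AlgebraicClosure ℚ))
        = u ^ 4 - (W.b₄ : AlgebraicClosure ℚ) * u ^ 2 - 2 * (W.b₆ : AlgebraicClosure ℚ) * u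
          - (W.b₈ : AlgebraicClosure ℚ))
    (R2 : u * (4 * v ^ 3 + (W.b₂ : AlgebraicClosure ℚ) * v ^ 2
          + 2 * (W.b₄ : AlgebraicClosure ℚ) * v + (W.b₆ : AlgebraicClosure ℚ))
        = v ^ 4 - (W.b₄ : AlgebraicClosure ℚ) * v ^ 2 - 2 * (W.b₆ : AlgebraicClosure ℚ) * v
          - (W.b₈ : AlgebraicClosure ℚ)) : False := by
  -- rational quantities
  obtain ⟨b2, hb2⟩ : ∃ b2 : ℚ, b2 = (W.b₂ : ℚ) := ⟨_, rfl⟩
  obtain ⟨b4, hb4⟩ : ∃ b4 : ℚ, b4 = (W.b₄ : ℚ) := ⟨_, rfl⟩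
  obtain ⟨b6, hb6⟩ : ∃ b6 : ℚ, b6 = (W.b₆ : ℚ) := ⟨_, rfl⟩
  obtain ⟨b8, hb8⟩ : ∃ b8 : ℚ, b8 = (W.b₈ : ℚ) := ⟨_, rfl⟩
  have hbrel : 4 * b8 = b2 * b6 - b4 ^ 2 := by
    rw [hb2, hb4, hb6, hb8]
    exact_mod_cast W.b_relation
  obtain ⟨A, hA⟩ : ∃ A : ℚ, A = -(b2 ^ 2 - 24 * b4) / 48 := ⟨_, rfl⟩
  obtain ⟨B, hB⟩ : ∃ B : ℚ, B = -(-b2 ^ 3 + 36 * b2 * b4 - 216 * b6) / 864 := ⟨_, rfl⟩
  obtain ⟨w, hw⟩ : ∃ w : ℚ, w = w₀ + b2 / 12 := ⟨_, rfl⟩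
  obtain ⟨S1, hS1⟩ : ∃ S1 : ℚ, S1 = s₁ + b2 / 6 := ⟨_, rfl⟩
  obtain ⟨S2, hS2⟩ : ∃ S2 : ℚ, S2 = s₂ + b2 / 12 * s₁ + b2 ^ 2 / 144 := ⟨_, rfl⟩
  rw [← hb2, ← hb4, ← hb6, ← hb8] at hw₀
  have hc4 : (W.c₄ : ℚ) = -48 * A := by
    rw [hA, hb2, hb4]
    simp only [WeierstrassCurve.c₄]
    push_cast
    ring
  have hc6 : (W.c₆ : ℚ) = -864 * B := by
    rw [hB, hb2, hb4, hb6]
    simp only [WeierstrassCurve.c₆]
    push_cast
    ring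
  have hcrel : 1728 * (W.Δ : ℚ) = (W.c₄ : ℚ) ^ 3 - (W.c₆ : ℚ) ^ 2 := by
    exact_mod_cast W.c_relation
  have hdiscΔ : 16 * (4 * A ^ 3 + 27 * B ^ 2) = -(W.Δ : ℚ) := by
    rw [hc4, hc6] at hcrel
    linear_combination (1 / 1728 : ℚ) * hcrel
  have hΔq : (W.Δ : ℚ) ≠ 0 := by exact_mod_cast hΔ
  have hdisc : 4 * A ^ 3 + 27 * B ^ 2 ≠ 0 := by
    intro h
    rw [h] at hdiscΔ
    apply hΔq
    linarith
  have h1 : 3 * w ^ 4 + 6 * A * w ^ 2 + 12 * B * w - A ^ 2 = 0 := by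
    rw [hw, hA, hB]
    linear_combination hw₀ - (1 / 4 : ℚ) * hbrel
  -- transfer of the five-data to ℚ
  obtain ⟨φ, hφ⟩ : ∃ φ : ℚ →+* AlgebraicClosure ℚ, φ = algebraMap ℚ (AlgebraicClosure ℚ) :=
    ⟨_, rfl⟩
  rw [← hφ] at hs₁ hs₂
  have hφb2 : (W.b₂ : AlgebraicClosure ℚ) = φ b2 := by rw [hb2, map_intCast]
  have hφb4 : (W.b₄ : AlgebraicClosure ℚ) = φ b4 := by rw [hb4, map_intCast]
  have hφb6 : (W.b₆ : AlgebraicClosure ℚ) = φ b6 := by rw [hb6, map_intCast]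
  have hφb8 : (W.b₈ : AlgebraicClosure ℚ) = φ b8 := by rw [hb8, map_intCast]
  rw [hφb2, hφb4, hφb6, hφb8] at R1 R2
  have h5 := five_short (φ b2) (φ b4) (φ b6) (φ b8) u v (φ A) (φ B) (φ S1) (φ S2)
    (by rw [← map_ofNat φ 4, ← map_mul, hbrel]; simp only [map_sub, map_mul, map_pow])
    (by rw [hA]; simp only [map_div₀, map_neg, map_sub, map_mul, map_pow, map_ofNat])
    (by rw [hB]; simp only [map_div₀, map_neg, map_sub, map_add, map_mul, map_pow, map_ofNat])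
    (by rw [hS1, hs₁]; simp only [map_div₀, map_add, map_ofNat])
    (by
      rw [hS2]
      simp only [map_div₀, map_add, map_mul, map_pow, map_ofNat]
      rw [← hs₁, ← hs₂]
      ring)
    huv R1 R2
  have h2 : 4 * B = S1 * (S1 ^ 2 - 6 * S2 - 2 * A) := by
    apply φ.injective
    simp only [map_sub, map_mul, map_pow, map_ofNat]
    exact h5.1
  have h3 : A ^ 2 + 2 * A * (S1 ^ 2 - S2) - S1 ^ 4 + 5 * S1 ^ 2 * S2 + 5 * S2 ^ 2 = 0 := by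
    apply φ.injective
    simp only [map_sub, map_add, map_mul, map_pow, map_ofNat, map_zero]
    exact h5.2
  -- the core
  obtain ⟨s, hs, hF4, hF3⟩ := core_s descent15 A B w S1 S2 h1 h2 h3 hdisc
  have hs0 : s ≠ 0 := by
    rcases hs with h | h | h | h <;> rw [h] <;> norm_num
  have hc4F : (W.c₄ : ℚ) = (S1 ^ 2 - 4 * S2) * (s ^ 2 + 10 * s + 5) := by
    apply mul_left_cancel₀ hF3
    rw [hc4]
    linear_combination ((4 * A - 7 * S1 ^ 2 + 40 * S2) + s * (S1 ^ 2 - 4 * S2) + 10 * (S1 ^ 2 - 4 * S2)) * hF4 - 16 * h3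
  have hΔF : (W.Δ : ℚ) = s * (S1 ^ 2 - 4 * S2) ^ 3 := by
    have hB' : B = S1 * (S1 ^ 2 - 6 * S2 - 2 * A) / 4 := by linarith
    have hd : 16 * (4 * A ^ 3 + 27 * B ^ 2)
        = -((4 * A - 7 * S1 ^ 2 + 40 * S2) * (S1 ^ 2 - 4 * S2) ^ 2) := by
      rw [hB']
      linear_combination (64 * A - 20 * S1 ^ 2 + 128 * S2) * h3
    rw [hF4] at hd
    linear_combination hdiscΔ - hd
  have hj : (W.c₄ : ℚ) ^ 3 = ((s ^ 2 + 10 * s + 5) ^ 3 / s) * (W.Δ : ℚ) := by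
    rw [hc4F, hΔF]
    field_simp
  obtain ⟨n1, n2, n3, n4⟩ := h65_j_not_exceptional W hΔ hW _ hj
  rcases hs with h | h | h | h
  · apply n1; rw [h]; norm_num
  · apply n3; rw [h]; norm_num
  · apply n2; rw [h]; norm_num
  · apply n4; rw [h]; norm_num

end Fermat.Agent.S51
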