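import Mathlib

/-!
# S51 helper (helper52): polynomial identities behind duplication and 3-, 5-torsion

Pure commutative-ring identities in the `b`-invariants of a Weierstrass curve.
-/

set_option autoImplicit false

namespace Fermat.Agent.S51

section Alg

variable {R : Type*} [CommRing R]

/-- `Ψ₂²(t) = 4t³ + b₂t² + 2b₄t + b₆`. -/
def h52_psi (b2 b4 b6 t : R) : R := 4 * t ^ 3 + b2 * t ^ 2 + 2 * b4 * t + b6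

/-- `Φ₂(t) = t⁴ - b₄t² - 2b₆t - b₈`. -/
def h52_phi (b4 b6 b8 t : R) : R := t ^ 4 - b4 * t ^ 2 - 2 * b6 * t - b8

/-- `Ψ₃(t) = 3t⁴ + b₂t³ + 3b₄t² + 3b₆t + b₈`. -/
def h52_psi3 (b2 b4 b6 b8 t : R) : R := 3 * t ^ 4 + b2 * t ^ 3 + 3 * b4 * t ^ 2 + 3 * b6 * t + b8

/-- `preΨ₄(t)`. -/
def h52_q4 (b2 b4 b6 b8 t : R) : R :=
  2 * t ^ 6 + b2 * t ^ 5 + 5 * b4 * t ^ 4 + 10 * b6 * t ^ 3 + 10 * b8 * t ^ 2 +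
    (b2 * b8 - b4 * b6) * t + (b4 * b8 - b6 ^ 2)

/-- `ψ₅(t) = preΨ₄ Ψ₂²² - Ψ₃³`. -/
def h52_psi5 (b2 b4 b6 b8 t : R) : R :=
  h52_q4 b2 b4 b6 b8 t * h52_psi b2 b4 b6 t ^ 2 - h52_psi3 b2 b4 b6 b8 t ^ 3

/-- The discriminant in terms of the `b`-invariants. -/
def h52_disc (b2 b4 b6 b8 : R) : R := -b2 ^ 2 * b8 - 8 * b4 ^ 3 - 27 * b6 ^ 2 + 9 * b2 * b4 * b6

lemma h52_psi3_eq (b2 b4 b6 b8 t : R) :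
    h52_psi3 b2 b4 b6 b8 t = t * h52_psi b2 b4 b6 t - h52_phi b4 b6 b8 t := by
  simp only [h52_psi3, h52_psi, h52_phi]; ring

/-- Bezout identity: `Φ₂` and `Ψ₂²` have no common root when `Δ ≠ 0`. -/
lemma h52_bezout (b2 b4 b6 b8 t : R) (hrel : 4 * b8 = b2 * b6 - b4 ^ 2) :
    (-48 * t ^ 2 - 8 * b2 * t + b2 ^ 2 - 32 * b4) * h52_phi b4 b6 b8 t +
      (12 * t ^ 3 - b2 * t ^ 2 - 10 * b4 * t + b2 * b4 - 27 * b6) * h52_psi b2 b4 b6 t =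
    h52_disc b2 b4 b6 b8 := by
  simp only [h52_phi, h52_psi, h52_disc]
  linear_combination (2 * b2 * t + 8 * b4 + 12 * t ^ 2) * hrel

/-- If `v Ψ₂²(u) = Φ₂(u)` then `Ψ₂²(v) Ψ₂²(u)³ = preΨ₄(u)²`. -/
lemma h52_psi_dup (b2 b4 b6 b8 u v : R) (hrel : 4 * b8 = b2 * b6 - b4 ^ 2)
    (hv : v * h52_psi b2 b4 b6 u = h52_phi b4 b6 b8 u) :
    h52_psi b2 b4 b6 v * h52_psi b2 b4 b6 u ^ 3 = h52_q4 b2 b4 b6 b8 u ^ 2 := by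
  have key : h52_psi b2 b4 b6 v * h52_psi b2 b4 b6 u ^ 3 - h52_q4 b2 b4 b6 b8 u ^ 2 =
      (4 * ((v * h52_psi b2 b4 b6 u) ^ 2 + v * h52_psi b2 b4 b6 u * h52_phi b4 b6 b8 u +
          h52_phi b4 b6 b8 u ^ 2) +
        b2 * h52_psi b2 b4 b6 u * (v * h52_psi b2 b4 b6 u + h52_phi b4 b6 b8 u) +
        2 * b4 * h52_psi b2 b4 b6 u ^ 2) * (v * h52_psi b2 b4 b6 u - h52_phi b4 b6 b8 u) +
      (-b2^2*u^6 - 6*b2*b4*u^5 - 7*b2*b6*u^4 - 4*b2*b8*u^3 - 8*b2*u^7 - 8*b4^2*u^4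
        - 16*b4*b6*u^3 - 8*b4*b8*u^2 - 28*b4*u^6 - 7*b6^2*u^2 - 6*b6*b8*u - 38*b6*u^5 - b8^2
        - 22*b8*u^4 - 13*u^8) * (4 * b8 - (b2 * b6 - b4 ^ 2)) := by
    simp only [h52_psi, h52_phi, h52_q4]; ring
  have h1 : v * h52_psi b2 b4 b6 u - h52_phi b4 b6 b8 u = 0 := sub_eq_zero.mpr hv
  have h2 : 4 * b8 - (b2 * b6 - b4 ^ 2) = 0 := sub_eq_zero.mpr hrel
  rw [h1, h2, mul_zero, mul_zero, add_zero] at key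
  exact sub_eq_zero.mp key

/-- If `v Ψ₂²(u) = Φ₂(u)` then `Φ₂(v) Ψ₂²(u)⁴ = u preΨ₄(u)² Ψ₂²(u) - Ψ₃(u) ψ₅(u)`. -/
lemma h52_phi_dup (b2 b4 b6 b8 u v : R) (hrel : 4 * b8 = b2 * b6 - b4 ^ 2)
    (hv : v * h52_psi b2 b4 b6 u = h52_phi b4 b6 b8 u) :
    h52_phi b4 b6 b8 v * h52_psi b2 b4 b6 u ^ 4 =
      u * h52_q4 b2 b4 b6 b8 u ^ 2 * h52_psi b2 b4 b6 u -
        h52_psi3 b2 b4 b6 b8 u * h52_psi5 b2 b4 b6 b8 u := by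
  have key : h52_phi b4 b6 b8 v * h52_psi b2 b4 b6 u ^ 4 -
      (u * h52_q4 b2 b4 b6 b8 u ^ 2 * h52_psi b2 b4 b6 u -
        h52_psi3 b2 b4 b6 b8 u * h52_psi5 b2 b4 b6 b8 u) =
      (((v * h52_psi b2 b4 b6 u) ^ 3 + (v * h52_psi b2 b4 b6 u) ^ 2 * h52_phi b4 b6 b8 u +
          v * h52_psi b2 b4 b6 u * h52_phi b4 b6 b8 u ^ 2 + h52_phi b4 b6 b8 u ^ 3) -
        b4 * h52_psi b2 b4 b6 u ^ 2 * (v * h52_psi b2 b4 b6 u + h52_phi b4 b6 b8 u) -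
        2 * b6 * h52_psi b2 b4 b6 u ^ 3) * (v * h52_psi b2 b4 b6 u - h52_phi b4 b6 b8 u) +
      (-b2^2*b4*u^8 - 3*b2^2*b6*u^7 - 3*b2^2*b8*u^6 - b2^2*u^10 - 4*b2*b4^2*u^7
        - 14*b2*b4*b6*u^6 - 12*b2*b4*b8*u^5 - 16*b2*b4*u^9 - 7*b2*b6^2*u^5 - 8*b2*b6*b8*u^4
        - 36*b2*b6*u^8 - b2*b8^2*u^3 - 30*b2*b8*u^7 - 5*b2*u^11 - 4*b4^3*u^6 - 16*b4^2*b6*u^5
        - 12*b4^2*b8*u^4 - 28*b4^2*u^8 - 15*b4*b6^2*u^4 - 16*b4*b6*b8*u^3 - 84*b4*b6*u^7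
        - 2*b4*b8^2*u^2 - 60*b4*b8*u^6 - 42*b4*u^10 - 4*b6^3*u^3 - 5*b6^2*b8*u^2 - 39*b6^2*u^6
        - b6*b8^2*u - 38*b6*b8*u^5 - 93*b6*u^9 - 4*b8^2*u^4 - 72*b8*u^8 - 4*u^12) *
        (4 * b8 - (b2 * b6 - b4 ^ 2)) := by
    simp only [h52_psi, h52_phi, h52_q4, h52_psi3, h52_psi5]; ring
  have h1 : v * h52_psi b2 b4 b6 u - h52_phi b4 b6 b8 u = 0 := sub_eq_zero.mpr hv
  have h2 : 4 * b8 - (b2 * b6 - b4 ^ 2) = 0 := sub_eq_zero.mpr hrel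
  rw [h1, h2, mul_zero, mul_zero, add_zero] at key
  exact sub_eq_zero.mp key

end Alg

end Fermat.Agent.S51
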