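import Mathlib
import Fermat.Agent.S51.Helper52Alg

/-!
# S51 helper (helper52): duplication formula and 3-, 5-torsion points on `W.Point`
-/

set_option autoImplicit false

namespace Fermat.Agent.S51

open WeierstrassCurve WeierstrassCurve.Affine WeierstrassCurve.Affine.Point

section Dup

variable {F : Type*} [Field F] {W : Affine F}

lemma h52_sq_eq_psi {x y : F} (h : W.Equation x y) :
    (y - W.negY x y) ^ 2 = h52_psi W.b₂ W.b₄ W.b₆ x := by
  rw [equation_iff] at h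
  simp only [negY, h52_psi, WeierstrassCurve.b₂, WeierstrassCurve.b₄, WeierstrassCurve.b₆]
  linear_combination 4 * h

lemma h52_psi_ne_zero_iff {x y : F} (h : W.Equation x y) :
    h52_psi W.b₂ W.b₄ W.b₆ x ≠ 0 ↔ y ≠ W.negY x y := by
  rw [← h52_sq_eq_psi h, ne_eq, sq_eq_zero_iff, sub_eq_zero]

lemma h52_disc_eq : h52_disc W.b₂ W.b₄ W.b₆ W.b₈ = W.Δ := rfl

/-- The `x`-coordinate of a point, `none` for the point at infinity. -/
def h52_xc : W.Point → Option F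
  | .zero => none
  | .some x _ _ => Option.some x

lemma h52_xc_zero : h52_xc (0 : W.Point) = none := rfl

lemma h52_xc_some {x y : F} (h : W.Nonsingular x y) :
    h52_xc (Point.some x y h : W.Point) = Option.some x := rfl

lemma h52_xc_neg (P : W.Point) : h52_xc (-P) = h52_xc P := by
  cases P <;> rfl

lemma h52_xc_eq_none {P : W.Point} : h52_xc P = none ↔ P = 0 := by
  cases P with
  | zero => exact ⟨fun _ => rfl, fun _ => rfl⟩
  | some x y h => exact ⟨fun h' => by simp [h52_xc] at h', fun h' => (some_ne_zero h h').elim⟩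

lemma h52_eq_or_eq_neg_of_xc {P Q : W.Point} (h : h52_xc P = h52_xc Q) : P = Q ∨ P = -Q := by
  cases P with
  | zero =>
    left
    exact ((h52_xc_eq_none).mp h.symm).symm
  | some x y hP =>
    cases Q with
    | zero => simp [h52_xc] at h
    | some x' y' hQ =>
      simp only [h52_xc, Option.some.injEq] at h
      exact X_eq_iff.mp h

variable [DecidableEq F]

/-- Duplication formula for the `x`-coordinate. -/
lemma h52_dup {x y : F} (h : W.Nonsingular x y) (hy : y ≠ W.negY x y) :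
    ∃ (x' y' : F) (h' : W.Nonsingular x' y'),
      (Point.some x y h + Point.some x y h : W.Point) = Point.some x' y' h' ∧
      x' * h52_psi W.b₂ W.b₄ W.b₆ x = h52_phi W.b₄ W.b₆ W.b₈ x := by
  refine ⟨_, _, _, add_self_of_Y_ne hy, ?_⟩
  have hd : y - W.negY x y ≠ 0 := sub_ne_zero.mpr hy
  rw [← h52_sq_eq_psi h.1, slope_of_Y_ne rfl hy]
  have he := (equation_iff _ _).mp h.1
  have hd' : y - W.negY x y = 2 * y + W.a₁ * x + W.a₃ := by simp only [negY]; ring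
  rw [hd'] at hd ⊢
  have hℓ : (3 * x ^ 2 + 2 * W.a₂ * x + W.a₄ - W.a₁ * y) / (2 * y + W.a₁ * x + W.a₃) *
      (2 * y + W.a₁ * x + W.a₃) =
      3 * x ^ 2 + 2 * W.a₂ * x + W.a₄ - W.a₁ * y := div_mul_cancel₀ _ hd
  generalize (3 * x ^ 2 + 2 * W.a₂ * x + W.a₄ - W.a₁ * y) / (2 * y + W.a₁ * x + W.a₃) = ℓ
    at hℓ ⊢
  simp only [addX, h52_phi, WeierstrassCurve.b₄, WeierstrassCurve.b₆, WeierstrassCurve.b₈]
  linear_combination (ℓ * (2 * y + W.a₁ * x + W.a₃) +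
      (3 * x ^ 2 + 2 * W.a₂ * x + W.a₄ - W.a₁ * y) + W.a₁ * (2 * y + W.a₁ * x + W.a₃)) * hℓ
    - (W.a₁ ^ 2 + 4 * W.a₂ + 8 * x) * he

/-- Doubling, as a statement about `P + P`: either `P + P = 0` (exactly when `Ψ₂²(x) = 0`) or
the `x`-coordinate of `P + P` is `Φ₂(x)/Ψ₂²(x)`. -/
lemma h52_dup' {x y : F} (h : W.Nonsingular x y)
    (hpsi : h52_psi W.b₂ W.b₄ W.b₆ x ≠ 0) :
    ∃ (x' y' : F) (h' : W.Nonsingular x' y'),
      (Point.some x y h + Point.some x y h : W.Point) = Point.some x' y' h' ∧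
      x' * h52_psi W.b₂ W.b₄ W.b₆ x = h52_phi W.b₄ W.b₆ W.b₈ x :=
  h52_dup h ((h52_psi_ne_zero_iff h.1).mp hpsi)

lemma h52_psi_ne_zero_of_add_self {x y : F} (h : W.Nonsingular x y)
    (hne : (Point.some x y h + Point.some x y h : W.Point) ≠ 0) :
    h52_psi W.b₂ W.b₄ W.b₆ x ≠ 0 := by
  rw [h52_psi_ne_zero_iff h.1]
  intro hy
  exact hne (add_self_of_Y_eq hy)

/-- A nonzero `3`-torsion point has `Ψ₃(x) = 0`. -/
lemma h52_psi3_of_three {x y : F} (h : W.Nonsingular x y)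
    (h3 : (3 : ℕ) • (Point.some x y h : W.Point) = 0) :
    h52_psi3 W.b₂ W.b₄ W.b₆ W.b₈ x = 0 := by
  have h2 : (Point.some x y h + Point.some x y h : W.Point) = -Point.some x y h := by
    apply eq_neg_of_add_eq_zero_left
    rw [← h3]; abel
  have hne : (Point.some x y h + Point.some x y h : W.Point) ≠ 0 := by
    rw [h2]; exact neg_ne_zero.mpr (some_ne_zero h)
  obtain ⟨x', y', h', hdup, hx'⟩ := h52_dup' h (h52_psi_ne_zero_of_add_self h hne)
  rw [hdup, neg_some] at h2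
  have hxx : x' = x := by injection h2
  rw [h52_psi3_eq, ← hx', hxx, sub_self]

/-- Conversely, a point with `Ψ₃(x) = 0` on a curve with `Δ ≠ 0` is `3`-torsion. -/
lemma h52_three_of_psi3 (hΔ : W.Δ ≠ 0) {x y : F} (h : W.Nonsingular x y)
    (hx : h52_psi3 W.b₂ W.b₄ W.b₆ W.b₈ x = 0) :
    (3 : ℕ) • (Point.some x y h : W.Point) = 0 := by
  have hpsi : h52_psi W.b₂ W.b₄ W.b₆ x ≠ 0 := by
    intro hpsi
    have hphi : h52_phi W.b₄ W.b₆ W.b₈ x = 0 := by
      have := h52_psi3_eq W.b₂ W.b₄ W.b₆ W.b₈ x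
      rw [hx, hpsi, mul_zero, zero_sub] at this
      exact neg_eq_zero.mp this.symm
    have hb := h52_bezout W.b₂ W.b₄ W.b₆ W.b₈ x W.b_relation
    rw [hpsi, hphi, mul_zero, mul_zero, add_zero, h52_disc_eq] at hb
    exact hΔ hb.symm
  obtain ⟨x', y', h', hdup, hx'⟩ := h52_dup' h hpsi
  have hxx : x' = x := by
    have := h52_psi3_eq W.b₂ W.b₄ W.b₆ W.b₈ x
    rw [hx, ← hx'] at this
    have h0 : (x - x') * h52_psi W.b₂ W.b₄ W.b₆ x = 0 := by rw [sub_mul]; exact this.symm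
    rcases mul_eq_zero.mp h0 with h0 | h0
    · exact (sub_eq_zero.mp h0).symm
    · exact (hpsi h0).elim
  subst hxx
  have h3 : (3 : ℕ) • (Point.some x' y h : W.Point) =
      (Point.some x' y h + Point.some x' y h) + Point.some x' y h := by abel
  rw [h3]
  rcases (X_eq_iff (h₁ := h') (h₂ := h)).mp rfl with hc | hc
  · exfalso
    rw [← hdup] at hc
    exact some_ne_zero h (add_left_cancel (a := Point.some x' y h) (by rw [add_zero]; exact hc))
  · rw [hdup, hc, neg_add_cancel]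

/-- A nonzero `5`-torsion point `P = (u, _)`: with `v = x(2P)` one has `u ≠ v` and the two
duplication relations `v Ψ₂²(u) = Φ₂(u)`, `u Ψ₂²(v) = Φ₂(v)`. -/
lemma h52_five {u y : F} (h : W.Nonsingular u y)
    (h5 : (5 : ℕ) • (Point.some u y h : W.Point) = 0) :
    ∃ (v y₂ : F) (h₂ : W.Nonsingular v y₂),
      (2 : ℕ) • (Point.some u y h : W.Point) = Point.some v y₂ h₂ ∧ u ≠ v ∧
      v * h52_psi W.b₂ W.b₄ W.b₆ u = h52_phi W.b₄ W.b₆ W.b₈ u ∧
      u * h52_psi W.b₂ W.b₄ W.b₆ v = h52_phi W.b₄ W.b₆ W.b₈ v ∧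
      h52_psi W.b₂ W.b₄ W.b₆ u ≠ 0 ∧ h52_psi W.b₂ W.b₄ W.b₆ v ≠ 0 := by
  set P : W.Point := Point.some u y h with hP
  have hP0 : P ≠ 0 := some_ne_zero h
  have h2ne : P + P ≠ 0 := by
    intro h0
    apply hP0
    have : (5 : ℕ) • P = (P + P) + (P + P) + P := by abel
    rw [this, h0, add_zero, zero_add] at h5
    exact h5
  have hpsiu := h52_psi_ne_zero_of_add_self h h2ne
  obtain ⟨v, y₂, h₂, hdup, hv⟩ := h52_dup' h hpsiu
  have h4 : (Point.some v y₂ h₂ + Point.some v y₂ h₂ : W.Point) = -P := by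
    apply eq_neg_of_add_eq_zero_left
    rw [← hdup, ← h5]; abel
  have h4ne : (Point.some v y₂ h₂ + Point.some v y₂ h₂ : W.Point) ≠ 0 := by
    rw [h4]; exact neg_ne_zero.mpr hP0
  have hpsiv := h52_psi_ne_zero_of_add_self h₂ h4ne
  obtain ⟨w, y₃, h₃, hdup2, hw⟩ := h52_dup' h₂ hpsiv
  rw [hdup2, hP, neg_some] at h4
  have hwu : w = u := by injection h4
  rw [hwu] at hw
  refine ⟨v, y₂, h₂, ?_, ?_, hv, hw, hpsiu, hpsiv⟩
  · rw [← hdup]; abel
  · intro huv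
    subst huv
    rcases (X_eq_iff (h₁ := h₂) (h₂ := h)).mp rfl with hc | hc
    · rw [← hdup] at hc
      exact hP0 (add_left_cancel (a := P) (by rw [add_zero]; exact hc))
    · rw [← hdup] at hc
      -- `P + P = -P`, so `3P = 0`, and with `5P = 0` we get `P = 0`
      have h3 : P + P + P = 0 := by rw [hc]; exact neg_add_cancel _
      apply hP0
      have : (5 : ℕ) • P = (P + P + P) + (P + P + P) - P := by abel
      rw [this, h3, add_zero, zero_sub] at h5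
      exact neg_eq_zero.mp h5

/-- A nonzero `5`-torsion point on a curve with `Δ ≠ 0` has `ψ₅(x) = 0`. -/
lemma h52_psi5_of_five (hΔ : W.Δ ≠ 0) {u y : F} (h : W.Nonsingular u y)
    (h5 : (5 : ℕ) • (Point.some u y h : W.Point) = 0) :
    h52_psi5 W.b₂ W.b₄ W.b₆ W.b₈ u = 0 := by
  obtain ⟨v, y₂, h₂, -, -, hv, hu, hpsiu, hpsiv⟩ := h52_five h h5
  have hA := h52_psi_dup W.b₂ W.b₄ W.b₆ W.b₈ u v W.b_relation hv
  have hB := h52_phi_dup W.b₂ W.b₄ W.b₆ W.b₈ u v W.b_relation hv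
  have hT : h52_psi3 W.b₂ W.b₄ W.b₆ W.b₈ u ≠ 0 := by
    intro hT
    have h3 := h52_three_of_psi3 hΔ h hT
    apply some_ne_zero h
    have : (5 : ℕ) • (Point.some u y h : W.Point) =
        (2 : ℕ) • ((3 : ℕ) • (Point.some u y h : W.Point)) - Point.some u y h := by
      rw [← mul_nsmul]; abel
    rw [this, h3, smul_zero, zero_sub] at h5
    exact neg_eq_zero.mp h5
  have hprod : h52_psi3 W.b₂ W.b₄ W.b₆ W.b₈ u * h52_psi5 W.b₂ W.b₄ W.b₆ W.b₈ u = 0 := by
    have e1 : u * h52_q4 W.b₂ W.b₄ W.b₆ W.b₈ u ^ 2 * h52_psi W.b₂ W.b₄ W.b₆ u =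
        h52_phi W.b₄ W.b₆ W.b₈ v * h52_psi W.b₂ W.b₄ W.b₆ u ^ 4 := by
      rw [← hA, ← hu]; ring
    rw [hB] at e1
    linear_combination e1
  rcases mul_eq_zero.mp hprod with h0 | h0
  · exact (hT h0).elim
  · exact h0

/-- Conversely, a point with `ψ₅(x) = 0` on a curve with `Δ ≠ 0` is `5`-torsion. -/
lemma h52_five_of_psi5 (hΔ : W.Δ ≠ 0) {u y : F} (h : W.Nonsingular u y)
    (hu : h52_psi5 W.b₂ W.b₄ W.b₆ W.b₈ u = 0) :
    (5 : ℕ) • (Point.some u y h : W.Point) = 0 := by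
  have h5def : h52_q4 W.b₂ W.b₄ W.b₆ W.b₈ u * h52_psi W.b₂ W.b₄ W.b₆ u ^ 2 =
      h52_psi3 W.b₂ W.b₄ W.b₆ W.b₈ u ^ 3 := by
    simpa [h52_psi5, sub_eq_zero] using hu
  -- Step 1: `Ψ₂²(u) ≠ 0`
  have hpsiu : h52_psi W.b₂ W.b₄ W.b₆ u ≠ 0 := by
    intro hpsi
    have hT : h52_psi3 W.b₂ W.b₄ W.b₆ W.b₈ u = 0 := by
      rw [hpsi] at h5def
      have : h52_psi3 W.b₂ W.b₄ W.b₆ W.b₈ u ^ 3 = 0 := by rw [← h5def]; ring
      exact pow_eq_zero_iff (by norm_num) |>.mp this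
    have hphi : h52_phi W.b₄ W.b₆ W.b₈ u = 0 := by
      have := h52_psi3_eq W.b₂ W.b₄ W.b₆ W.b₈ u
      rw [hT, hpsi, mul_zero, zero_sub] at this
      exact neg_eq_zero.mp this.symm
    have hb := h52_bezout W.b₂ W.b₄ W.b₆ W.b₈ u W.b_relation
    rw [hpsi, hphi, mul_zero, mul_zero, add_zero, h52_disc_eq] at hb
    exact hΔ hb.symm
  obtain ⟨v, y₂, h₂, hdup, hv⟩ := h52_dup' h hpsiu
  have hA := h52_psi_dup W.b₂ W.b₄ W.b₆ W.b₈ u v W.b_relation hv
  have hB := h52_phi_dup W.b₂ W.b₄ W.b₆ W.b₈ u v W.b_relation hv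
  rw [hu, mul_zero, sub_zero] at hB
  -- Step 3: `Ψ₂²(v) ≠ 0`
  have hpsiv : h52_psi W.b₂ W.b₄ W.b₆ v ≠ 0 := by
    intro hpsi
    have hQ : h52_q4 W.b₂ W.b₄ W.b₆ W.b₈ u = 0 := by
      rw [hpsi, zero_mul] at hA
      exact pow_eq_zero_iff (by norm_num) |>.mp hA.symm
    have hT : h52_psi3 W.b₂ W.b₄ W.b₆ W.b₈ u = 0 := by
      rw [hQ, zero_mul] at h5def
      exact pow_eq_zero_iff (by norm_num) |>.mp h5def.symm
    have hvu : v = u := by
      have := h52_psi3_eq W.b₂ W.b₄ W.b₆ W.b₈ u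
      rw [hT, ← hv] at this
      have h0 : (u - v) * h52_psi W.b₂ W.b₄ W.b₆ u = 0 := by rw [sub_mul]; exact this.symm
      rcases mul_eq_zero.mp h0 with h0 | h0
      · exact (sub_eq_zero.mp h0).symm
      · exact (hpsiu h0).elim
    rw [hvu] at hpsi
    exact hpsiu hpsi
  obtain ⟨w, y₃, h₃, hdup2, hw⟩ := h52_dup' h₂ hpsiv
  -- `w = u`
  have hwu : w = u := by
    have e1 : h52_phi W.b₄ W.b₆ W.b₈ v * h52_psi W.b₂ W.b₄ W.b₆ u ^ 4 =
        u * h52_psi W.b₂ W.b₄ W.b₆ v * h52_psi W.b₂ W.b₄ W.b₆ u ^ 4 := by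
      rw [hB, ← hA]; ring
    have e2 : h52_phi W.b₄ W.b₆ W.b₈ v = u * h52_psi W.b₂ W.b₄ W.b₆ v :=
      mul_right_cancel₀ (pow_ne_zero 4 hpsiu) e1
    rw [← hw] at e2
    exact mul_right_cancel₀ hpsiv e2
  subst hwu
  set P : W.Point := Point.some w y h with hP
  have h4 : (4 : ℕ) • P = Point.some w y₃ h₃ := by
    rw [← hdup2, ← hdup]; abel
  rcases (X_eq_iff (h₁ := h₃) (h₂ := h)).mp rfl with hc | hc
  · -- `4P = P`, so `3P = 0`, so `Ψ₃(u) = 0`, contradiction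
    exfalso
    rw [← h4] at hc
    have h3 : (3 : ℕ) • P = 0 := by
      have e : (4 : ℕ) • P = (3 : ℕ) • P + P := by abel
      rw [e] at hc
      exact add_right_cancel (b := P) (by rw [zero_add]; exact hc)
    have hT := h52_psi3_of_three h h3
    have hQ : h52_q4 W.b₂ W.b₄ W.b₆ W.b₈ w = 0 := by
      rw [hT] at h5def
      have : h52_q4 W.b₂ W.b₄ W.b₆ W.b₈ w * h52_psi W.b₂ W.b₄ W.b₆ w ^ 2 = 0 := by
        rw [h5def]; ring
      rcases mul_eq_zero.mp this with h0 | h0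
      · exact h0
      · exact (pow_ne_zero 2 hpsiu h0).elim
    rw [hQ] at hA
    have : h52_psi W.b₂ W.b₄ W.b₆ v * h52_psi W.b₂ W.b₄ W.b₆ w ^ 3 = 0 := by rw [hA]; ring
    rcases mul_eq_zero.mp this with h0 | h0
    · exact hpsiv h0
    · exact pow_ne_zero 3 hpsiu h0
  · rw [← h4] at hc
    have : (5 : ℕ) • P = (4 : ℕ) • P + P := by abel
    rw [this, hc, neg_add_cancel]

/-- Multiples of a `3`-torsion point are `0` or have the same `x`-coordinate. -/
lemma h52_xc_zsmul_three {P : W.Point} (h3 : (3 : ℕ) • P = 0) (k : ℤ) :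
    h52_xc (k • P) = none ∨ h52_xc (k • P) = h52_xc P := by
  have h3z : (3 : ℤ) • P = 0 := by
    rw [← h3, ← natCast_zsmul]; rfl
  have hk : k • P = (k % 3) • P := by
    calc k • P = (k % 3 + 3 * (k / 3)) • P := by rw [Int.emod_add_mul_ediv]
      _ = (k % 3) • P + (k / 3) • ((3 : ℤ) • P) := by rw [add_zsmul, mul_comm, mul_zsmul]
      _ = (k % 3) • P := by rw [h3z, smul_zero, add_zero]
  have h0 := Int.emod_nonneg k (by norm_num : (3 : ℤ) ≠ 0)
  have h1 := Int.emod_lt_of_pos k (by norm_num : (0 : ℤ) < 3)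
  rw [hk]
  generalize k % 3 = r at h0 h1 ⊢
  interval_cases r
  · left; rw [zero_zsmul]; rfl
  · right; rw [one_zsmul]
  · right
    have : (2 : ℤ) • P = -P := by
      apply eq_neg_of_add_eq_zero_left
      rw [← h3z, show (3 : ℤ) = 2 + 1 by norm_num, add_zsmul, one_zsmul]
    rw [this, h52_xc_neg]

/-- Multiples of a `5`-torsion point `P` are `0` or have the `x`-coordinate of `P` or `2P`. -/
lemma h52_xc_zsmul_five {P : W.Point} (h5 : (5 : ℕ) • P = 0) (k : ℤ) :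
    h52_xc (k • P) = none ∨ h52_xc (k • P) = h52_xc P ∨
      h52_xc (k • P) = h52_xc ((2 : ℕ) • P) := by
  have h5z : (5 : ℤ) • P = 0 := by
    rw [← h5, ← natCast_zsmul]; rfl
  have h2z : (2 : ℤ) • P = (2 : ℕ) • P := by
    rw [← natCast_zsmul]; rfl
  have hk : k • P = (k % 5) • P := by
    calc k • P = (k % 5 + 5 * (k / 5)) • P := by rw [Int.emod_add_mul_ediv]
      _ = (k % 5) • P + (k / 5) • ((5 : ℤ) • P) := by rw [add_zsmul, mul_comm, mul_zsmul]
      _ = (k % 5) • P := by rw [h5z, smul_zero, add_zero]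
  have h0 := Int.emod_nonneg k (by norm_num : (5 : ℤ) ≠ 0)
  have h1 := Int.emod_lt_of_pos k (by norm_num : (0 : ℤ) < 5)
  rw [hk]
  generalize k % 5 = r at h0 h1 ⊢
  interval_cases r
  · left; rw [zero_zsmul]; rfl
  · right; left; rw [one_zsmul]
  · right; right; rw [h2z]
  · right; right
    have : (3 : ℤ) • P = -((2 : ℕ) • P) := by
      apply eq_neg_of_add_eq_zero_left
      rw [← h2z, ← h5z, show (5 : ℤ) = 3 + 2 by norm_num, add_zsmul]
    rw [this, h52_xc_neg]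
  · right; left
    have : (4 : ℤ) • P = -P := by
      apply eq_neg_of_add_eq_zero_left
      rw [← h5z, show (5 : ℤ) = 4 + 1 by norm_num, add_zsmul, one_zsmul]
    rw [this, h52_xc_neg]

end Dup

end Fermat.Agent.S51
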