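import Mathlib
import Fermat.Agent.S51.Helper52Dup

/-!
# S51 helper (helper52): counting 3- and 5-torsion points, and lines in `E[p]`
-/

set_option autoImplicit false

namespace Fermat.Agent.S51

open WeierstrassCurve WeierstrassCurve.Affine WeierstrassCurve.Affine.Point

section Count

variable {F : Type*} [Field F] {W : Affine F}

open Classical in
/-- A chosen point with given `x`-coordinate (or `0` if there is none). -/
noncomputable def h52_rep (W : Affine F) (x : F) : W.Point :=
  if h : ∃ P : W.Point, h52_xc P = Option.some x then h.choose else 0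

lemma h52_rep_spec {P : W.Point} {x : F} (h : h52_xc P = Option.some x) :
    h52_xc (h52_rep W x) = Option.some x := by
  have hex : ∃ P : W.Point, h52_xc P = Option.some x := ⟨P, h⟩
  rw [h52_rep, dif_pos hex]
  exact hex.choose_spec

open Classical in
/-- The coding map used to bound the number of points with `x`-coordinates in a finite set. -/
noncomputable def h52_code (W : Affine F) (R : Finset F) (P : W.Point) : Option (R × Bool) :=
  match h52_xc P with
  | none => none
  | Option.some x => if hx : x ∈ R then Option.some (⟨x, hx⟩, decide (P = h52_rep W x)) else none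

lemma h52_code_injOn (R : Finset F) {P Q : W.Point}
    (hP : h52_xc P = none ∨ ∃ x ∈ R, h52_xc P = Option.some x)
    (hQ : h52_xc Q = none ∨ ∃ x ∈ R, h52_xc Q = Option.some x)
    (h : h52_code W R P = h52_code W R Q) : P = Q := by
  classical
  rcases hP with hP | ⟨x, hx, hP⟩ <;> rcases hQ with hQ | ⟨x', hx', hQ⟩
  · rw [h52_xc_eq_none.mp hP, h52_xc_eq_none.mp hQ]
  · simp [h52_code, hP, hQ, hx'] at h
  · simp [h52_code, hP, hQ, hx] at h
  · simp only [h52_code, hP, hQ, dif_pos hx, dif_pos hx', Option.some.injEq, Prod.mk.injEq,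
      Subtype.mk.injEq, decide_eq_decide] at h
    obtain ⟨rfl, hdec⟩ := h
    have hrep := h52_rep_spec hP
    rcases h52_eq_or_eq_neg_of_xc (hP.trans hrep.symm) with h1 | h1
    · rw [h1, ← hdec.mp h1]
    · rcases h52_eq_or_eq_neg_of_xc (hQ.trans hrep.symm) with h2 | h2
      · rw [hdec.mpr h2, ← h2]
      · rw [h1, h2]

/-- If all points satisfying `p` are `0` or have `x`-coordinate in the finite set `R`, then there
are at most `2 |R| + 1` of them. -/
lemma h52_card_le (p : W.Point → Prop) (R : Finset F)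
    (hp : ∀ P, p P → h52_xc P = none ∨ ∃ x ∈ R, h52_xc P = Option.some x) :
    Finite {P : W.Point // p P} ∧ Nat.card {P : W.Point // p P} ≤ 2 * R.card + 1 := by
  classical
  have hinj : Function.Injective (fun P : {P : W.Point // p P} => h52_code W R P.1) := by
    intro P Q h
    exact Subtype.ext (h52_code_injOn R (hp P.1 P.2) (hp Q.1 Q.2) h)
  have hfin : Finite {P : W.Point // p P} := Finite.of_injective _ hinj
  refine ⟨hfin, ?_⟩
  have := Nat.card_le_card_of_injective _ hinj
  refine this.trans (le_of_eq ?_)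
  rw [Nat.card_eq_fintype_card, Fintype.card_option, Fintype.card_prod, Fintype.card_coe,
    Fintype.card_bool, mul_comm]

lemma h52_eval_Ψ₃ (x : F) : (W.Ψ₃).eval x = h52_psi3 W.b₂ W.b₄ W.b₆ W.b₈ x := by
  simp [WeierstrassCurve.Ψ₃, h52_psi3]

lemma h52_eval_Ψ₂Sq (x : F) : (W.Ψ₂Sq).eval x = h52_psi W.b₂ W.b₄ W.b₆ x := by
  simp [WeierstrassCurve.Ψ₂Sq, h52_psi]

lemma h52_eval_preΨ₄ (x : F) : (W.preΨ₄).eval x = h52_q4 W.b₂ W.b₄ W.b₆ W.b₈ x := by
  simp [WeierstrassCurve.preΨ₄, h52_q4]

lemma h52_preΨ'_five : W.preΨ' 5 = W.preΨ₄ * W.Ψ₂Sq ^ 2 - W.Ψ₃ ^ 3 := by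
  have := W.preΨ'_odd 0
  simpa using this

lemma h52_eval_preΨ'_five (x : F) :
    (W.preΨ' 5).eval x = h52_psi5 W.b₂ W.b₄ W.b₆ W.b₈ x := by
  rw [h52_preΨ'_five]
  simp [h52_psi5, h52_eval_Ψ₃, h52_eval_Ψ₂Sq, h52_eval_preΨ₄]

variable [DecidableEq F]

/-- There are at most `9` points killed by `3`. -/
lemma h52_card_three (h3 : (3 : F) ≠ 0) :
    Finite (Submodule.torsionBy ℤ W.Point ((3 : ℕ) : ℤ)) ∧
      Nat.card (Submodule.torsionBy ℤ W.Point ((3 : ℕ) : ℤ)) ≤ 9 := by
  have hne : W.Ψ₃ ≠ 0 := W.Ψ₃_ne_zero h3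
  have key := h52_card_le (W := W) (fun P => P ∈ Submodule.torsionBy ℤ W.Point ((3 : ℕ) : ℤ))
    (W.Ψ₃).roots.toFinset (by
      intro P hP
      rw [Submodule.mem_torsionBy_iff, natCast_zsmul] at hP
      cases P with
      | zero => left; rfl
      | some x y h =>
        right
        refine ⟨x, ?_, rfl⟩
        rw [Multiset.mem_toFinset, Polynomial.mem_roots hne, Polynomial.IsRoot.def, h52_eval_Ψ₃]
        exact h52_psi3_of_three h hP)
  refine ⟨key.1, key.2.trans ?_⟩
  have h1 : (W.Ψ₃).roots.toFinset.card ≤ 4 :=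
    (Multiset.toFinset_card_le _).trans ((Polynomial.card_roots' _).trans W.natDegree_Ψ₃_le)
  omega

/-- There are at most `25` points killed by `5`. -/
lemma h52_card_five (hΔ : W.Δ ≠ 0) (h5 : (5 : F) ≠ 0) :
    Finite (Submodule.torsionBy ℤ W.Point ((5 : ℕ) : ℤ)) ∧
      Nat.card (Submodule.torsionBy ℤ W.Point ((5 : ℕ) : ℤ)) ≤ 25 := by
  have h5' : ((5 : ℕ) : F) ≠ 0 := by exact_mod_cast h5
  have hne : W.preΨ' 5 ≠ 0 := W.preΨ'_ne_zero h5'
  have key := h52_card_le (W := W) (fun P => P ∈ Submodule.torsionBy ℤ W.Point ((5 : ℕ) : ℤ))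
    (W.preΨ' 5).roots.toFinset (by
      intro P hP
      rw [Submodule.mem_torsionBy_iff, natCast_zsmul] at hP
      cases P with
      | zero => left; rfl
      | some x y h =>
        right
        refine ⟨x, ?_, rfl⟩
        rw [Multiset.mem_toFinset, Polynomial.mem_roots hne, Polynomial.IsRoot.def,
          h52_eval_preΨ'_five]
        exact h52_psi5_of_five hΔ h hP)
  refine ⟨key.1, key.2.trans ?_⟩
  have h1 : (W.preΨ' 5).roots.toFinset.card ≤ 12 := by
    refine (Multiset.toFinset_card_le _).trans ((Polynomial.card_roots' _).trans ?_)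
    have := W.natDegree_preΨ'_le 5
    have h2 : (5 ^ 2 - if Even 5 then 4 else 1) / 2 = 12 := by decide
    rw [h2] at this
    exact this
  omega

end Count

section Line

/-- In a `ZMod p`-vector space with at most `p ^ 2` elements, a submodule which is neither `⊥`
nor `⊤` consists of the integer multiples of one nonzero vector. -/
lemma h52_line {p : ℕ} [Fact p.Prime] {V : Type*} [AddCommGroup V] [Module (ZMod p) V]
    [Finite V] (hcard : Nat.card V ≤ p ^ 2) (N : Submodule (ZMod p) V) (hbot : N ≠ ⊥)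
    (htop : N ≠ ⊤) :
    ∃ P ∈ N, P ≠ 0 ∧ ∀ Q ∈ N, ∃ k : ℤ, Q = k • P := by
  have hp : 1 < p := (Fact.out : p.Prime).one_lt
  have hfr : Module.finrank (ZMod p) V ≤ 2 := by
    have h1 : Nat.card V = Nat.card (ZMod p) ^ Module.finrank (ZMod p) V :=
      Module.natCard_eq_pow_finrank
    rw [h1, Nat.card_zmod] at hcard
    exact (Nat.pow_le_pow_iff_right hp).mp hcard
  have h2 : Module.finrank (ZMod p) N < Module.finrank (ZMod p) V :=
    Submodule.finrank_lt htop
  have h3 : Module.finrank (ZMod p) N ≠ 0 := by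
    intro h0
    exact hbot (Submodule.finrank_eq_zero.mp h0)
  have h4 : Module.finrank (ZMod p) N = 1 := by omega
  obtain ⟨v, hv, hspan⟩ := finrank_eq_one_iff'.mp h4
  refine ⟨v.1, v.2, fun h0 => hv (Subtype.ext h0), fun Q hQ => ?_⟩
  obtain ⟨c, hc⟩ := hspan ⟨Q, hQ⟩
  refine ⟨(ZMod.cast c : ℤ), ?_⟩
  have hc' : Q = c • (v : V) := by
    have := congrArg Subtype.val hc
    simpa using this.symm
  rw [hc', ← Int.cast_smul_eq_zsmul (ZMod p) (ZMod.cast c : ℤ) (v : V), ZMod.intCast_zmod_cast]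

end Line

end Fermat.Agent.S51
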