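import Mathlib
import Fermat.Agent.S51.Helper52Count

/-!
# S51 helper (helper52): existence of 3- and 5-torsion over algebraically closed fields
-/

set_option autoImplicit false

namespace Fermat.Agent.S51

open WeierstrassCurve WeierstrassCurve.Affine WeierstrassCurve.Affine.Point Polynomial

section Exist

variable {F : Type*} [Field F] [IsAlgClosed F] {W : Affine F}

lemma h52_exists_y (W : Affine F) (x : F) : ∃ y, W.Equation x y := by
  obtain ⟨y, hy⟩ := IsAlgClosed.exists_root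
    (C (1 : F) * X ^ 2 + C (W.a₁ * x + W.a₃) * X + C (-(x ^ 3 + W.a₂ * x ^ 2 + W.a₄ * x + W.a₆)))
    (by rw [degree_quadratic one_ne_zero]; exact two_ne_zero)
  refine ⟨y, ?_⟩
  rw [equation_iff]
  simp only [IsRoot.def, eval_add, eval_pow, eval_X, eval_mul, eval_C] at hy
  linear_combination hy

variable [DecidableEq F]

lemma h52_exists_three (hΔ : W.Δ ≠ 0) (h3 : (3 : F) ≠ 0) :
    ∃ P : W.Point, P ≠ 0 ∧ (3 : ℕ) • P = 0 := by
  have hdeg : (W.Ψ₃).degree ≠ 0 := by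
    rw [degree_eq_natDegree (W.Ψ₃_ne_zero h3), W.natDegree_Ψ₃ h3]
    norm_num
  obtain ⟨x, hx⟩ := IsAlgClosed.exists_root _ hdeg
  obtain ⟨y, hy⟩ := h52_exists_y W x
  have hns : W.Nonsingular x y := (equation_iff_nonsingular_of_Δ_ne_zero hΔ).mp hy
  refine ⟨Point.some x y hns, some_ne_zero hns, h52_three_of_psi3 hΔ hns ?_⟩
  rw [← h52_eval_Ψ₃]
  exact hx

lemma h52_exists_five (hΔ : W.Δ ≠ 0) (h5 : (5 : F) ≠ 0) :
    ∃ P : W.Point, P ≠ 0 ∧ (5 : ℕ) • P = 0 := by
  have h5' : ((5 : ℕ) : F) ≠ 0 := by exact_mod_cast h5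
  have hdeg : (W.preΨ' 5).degree ≠ 0 := by
    rw [degree_eq_natDegree (W.preΨ'_ne_zero h5'), W.natDegree_preΨ' h5']
    norm_num
  obtain ⟨x, hx⟩ := IsAlgClosed.exists_root _ hdeg
  obtain ⟨y, hy⟩ := h52_exists_y W x
  have hns : W.Nonsingular x y := (equation_iff_nonsingular_of_Δ_ne_zero hΔ).mp hy
  refine ⟨Point.some x y hns, some_ne_zero hns, h52_five_of_psi5 hΔ hns ?_⟩
  rw [← h52_eval_preΨ'_five]
  exact hx

end Exist

end Fermat.Agent.S51
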