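import Mathlib
import Fermat.Prelude.Def_FLTPrelim_ModularRep
import Fermat.Agent.S51.Helper52Exist

/-!
# S51 helper (helper52): reducible mod-3 / mod-5 representations give rational equations

* `three_reducible`: if the mod-3 representation of `W` is reducible, then `Ψ₃` has a rational root.
* `five_reducible`: if the mod-5 representation of `W` is reducible, then there are `u ≠ v` in
  `AlgebraicClosure ℚ` with rational sum and product satisfying the two duplication relations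
  `v Ψ₂²(u) = Φ₂(u)` and `u Ψ₂²(v) = Φ₂(v)`.
-/

set_option autoImplicit false

namespace Fermat.Agent.S51

open WeierstrassCurve WeierstrassCurve.Affine WeierstrassCurve.Affine.Point

theorem h52_isGalois : IsGalois ℚ (AlgebraicClosure ℚ) := by
  have e : (AlgebraicClosure.instAlgebra ℚ : Algebra ℚ (AlgebraicClosure ℚ)) =
      DivisionRing.toRatAlgebra := Subsingleton.elim _ _
  rw [← e]
  infer_instance

/-- An element of `AlgebraicClosure ℚ` fixed by the whole Galois group is rational. -/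
lemma h52_rational_of_fixed (x : AlgebraicClosure ℚ)
    (hx : ∀ σ : AlgebraicClosure ℚ ≃ₐ[ℚ] AlgebraicClosure ℚ, σ x = x) :
    ∃ q : ℚ, algebraMap ℚ (AlgebraicClosure ℚ) q = x :=
  haveI := h52_isGalois
  (InfiniteGalois.mem_range_algebraMap_iff_fixed x).mpr hx

section Glue

variable (W : WeierstrassCurve ℤ)

/-- The base change of `W` to `AlgebraicClosure ℚ`. -/
noncomputable abbrev h52_EK : Affine (AlgebraicClosure ℚ) :=
  (W.map (Int.castRingHom ℚ))⁄(AlgebraicClosure ℚ)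

lemma h52_EK_b₂ : (h52_EK W).b₂ = ((W.b₂ : ℤ) : AlgebraicClosure ℚ) := by
  simp [h52_EK, WeierstrassCurve.baseChange]

lemma h52_EK_b₄ : (h52_EK W).b₄ = ((W.b₄ : ℤ) : AlgebraicClosure ℚ) := by
  simp [h52_EK, WeierstrassCurve.baseChange]

lemma h52_EK_b₆ : (h52_EK W).b₆ = ((W.b₆ : ℤ) : AlgebraicClosure ℚ) := by
  simp [h52_EK, WeierstrassCurve.baseChange]

lemma h52_EK_b₈ : (h52_EK W).b₈ = ((W.b₈ : ℤ) : AlgebraicClosure ℚ) := by
  simp [h52_EK, WeierstrassCurve.baseChange]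

lemma h52_EK_Δ (hΔ : W.Δ ≠ 0) : (h52_EK W).Δ ≠ 0 := by
  have : (h52_EK W).Δ = ((W.Δ : ℤ) : AlgebraicClosure ℚ) := by
    simp [h52_EK, WeierstrassCurve.baseChange]
  rw [this]
  exact_mod_cast hΔ

/-- The Galois action on a point, in coordinates. -/
lemma h52_smul_some (σ : AlgebraicClosure ℚ ≃ₐ[ℚ] AlgebraicClosure ℚ) {x y : AlgebraicClosure ℚ}
    (h : (h52_EK W).Nonsingular x y) :
    h52_xc (σ • (Point.some x y h : (h52_EK W).Point)) = Option.some (σ x) := by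
  rw [algEquiv_smul_def, map_some]
  rfl

lemma h52_smul_xc (σ : AlgebraicClosure ℚ ≃ₐ[ℚ] AlgebraicClosure ℚ) (P : (h52_EK W).Point) :
    h52_xc (σ • P) = (h52_xc P).map σ := by
  cases P with
  | zero => rfl
  | some x y h => exact h52_smul_some W σ h

theorem three_reducible (hΔ : W.Δ ≠ 0) (h : ¬ W.ModRepIsIrreducible 3) :
    ∃ w : ℚ, 3 * w ^ 4 + (W.b₂ : ℚ) * w ^ 3 + 3 * (W.b₄ : ℚ) * w ^ 2 + 3 * (W.b₆ : ℚ) * w
      + (W.b₈ : ℚ) = 0 := by
  have hΔK := h52_EK_Δ W hΔ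
  have h3K : (3 : AlgebraicClosure ℚ) ≠ 0 := by norm_num
  unfold WeierstrassCurve.ModRepIsIrreducible GaloisRepIsIrreducible at h
  have hnt : Nontrivial (Submodule.torsionBy ℤ (h52_EK W).Point ((3 : ℕ) : ℤ)) := by
    obtain ⟨P, hP0, hP3⟩ := h52_exists_three hΔK h3K
    refine ⟨⟨⟨P, ?_⟩, 0, ?_⟩⟩
    · rw [Submodule.mem_torsionBy_iff, natCast_zsmul]; exact hP3
    · intro h0; exact hP0 (congrArg Subtype.val h0)
  rw [not_and] at h
  obtain ⟨N, hN⟩ := not_forall.mp (h hnt)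
  rw [Classical.not_imp, not_or] at hN
  obtain ⟨hstab, hbot, htop⟩ := hN
  obtain ⟨hfin, hcard⟩ := h52_card_three (W := h52_EK W) h3K
  obtain ⟨P, hPN, hP0, hline⟩ := h52_line (p := 3) (by norm_num; exact hcard) N hbot htop
  have h3P : (3 : ℕ) • (P : (h52_EK W).Point) = 0 := by
    have := P.2
    rwa [Submodule.mem_torsionBy_iff, natCast_zsmul] at this
  have hP0' : (P : (h52_EK W).Point) ≠ 0 := fun h0 => hP0 (Subtype.ext h0)
  obtain ⟨x, y, hxy, hPeq⟩ : ∃ x y, ∃ hxy : (h52_EK W).Nonsingular x y,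
      (P : (h52_EK W).Point) = Point.some x y hxy := by
    cases hP : (P : (h52_EK W).Point) with
    | zero => exact (hP0' hP).elim
    | some x y hxy => exact ⟨x, y, hxy, rfl⟩
  have hpsi3 : h52_psi3 (h52_EK W).b₂ (h52_EK W).b₄ (h52_EK W).b₆ (h52_EK W).b₈ x = 0 :=
    h52_psi3_of_three hxy (by rw [← hPeq]; exact h3P)
  have hfix : ∀ σ : AlgebraicClosure ℚ ≃ₐ[ℚ] AlgebraicClosure ℚ, σ x = x := by
    intro σ
    obtain ⟨k, hk⟩ := hline _ (hstab σ P hPN)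
    have hk' : σ • (P : (h52_EK W).Point) = k • (P : (h52_EK W).Point) := by
      have h1 : ((σ • P : Submodule.torsionBy ℤ (h52_EK W).Point ((3 : ℕ) : ℤ)) :
          (h52_EK W).Point) = σ • (P : (h52_EK W).Point) := rfl
      rw [← h1, hk]
      simp
    have hx := h52_xc_zsmul_three h3P k
    rw [← hk', h52_smul_xc, hPeq] at hx
    simpa [h52_xc] using hx
  obtain ⟨w, hw⟩ := h52_rational_of_fixed x hfix
  refine ⟨w, ?_⟩
  apply (algebraMap ℚ (AlgebraicClosure ℚ)).injective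
  rw [h52_EK_b₂, h52_EK_b₄, h52_EK_b₆, h52_EK_b₈, ← hw, h52_psi3] at hpsi3
  simpa using hpsi3

theorem five_reducible (hΔ : W.Δ ≠ 0) (h : ¬ W.ModRepIsIrreducible 5) :
    ∃ (s₁ s₂ : ℚ) (u v : AlgebraicClosure ℚ), u ≠ v ∧
      u + v = algebraMap ℚ (AlgebraicClosure ℚ) s₁ ∧
      u * v = algebraMap ℚ (AlgebraicClosure ℚ) s₂ ∧
      v * (4 * u ^ 3 + ((W.b₂ : ℤ) : AlgebraicClosure ℚ) * u ^ 2 +
          2 * ((W.b₄ : ℤ) : AlgebraicClosure ℚ) * u + ((W.b₆ : ℤ) : AlgebraicClosure ℚ)) =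
        u ^ 4 - ((W.b₄ : ℤ) : AlgebraicClosure ℚ) * u ^ 2 -
          2 * ((W.b₆ : ℤ) : AlgebraicClosure ℚ) * u - ((W.b₈ : ℤ) : AlgebraicClosure ℚ) ∧
      u * (4 * v ^ 3 + ((W.b₂ : ℤ) : AlgebraicClosure ℚ) * v ^ 2 +
          2 * ((W.b₄ : ℤ) : AlgebraicClosure ℚ) * v + ((W.b₆ : ℤ) : AlgebraicClosure ℚ)) =
        v ^ 4 - ((W.b₄ : ℤ) : AlgebraicClosure ℚ) * v ^ 2 -
          2 * ((W.b₆ : ℤ) : AlgebraicClosure ℚ) * v - ((W.b₈ : ℤ) : AlgebraicClosure ℚ) := by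
  have : Fact (Nat.Prime 5) := ⟨by norm_num⟩
  have hΔK := h52_EK_Δ W hΔ
  have h5K : (5 : AlgebraicClosure ℚ) ≠ 0 := by norm_num
  unfold WeierstrassCurve.ModRepIsIrreducible GaloisRepIsIrreducible at h
  have hnt : Nontrivial (Submodule.torsionBy ℤ (h52_EK W).Point ((5 : ℕ) : ℤ)) := by
    obtain ⟨P, hP0, hP5⟩ := h52_exists_five hΔK h5K
    refine ⟨⟨⟨P, ?_⟩, 0, ?_⟩⟩
    · rw [Submodule.mem_torsionBy_iff, natCast_zsmul]; exact hP5
    · intro h0; exact hP0 (congrArg Subtype.val h0)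
  rw [not_and] at h
  obtain ⟨N, hN⟩ := not_forall.mp (h hnt)
  rw [Classical.not_imp, not_or] at hN
  obtain ⟨hstab, hbot, htop⟩ := hN
  obtain ⟨hfin, hcard⟩ := h52_card_five (W := h52_EK W) hΔK h5K
  obtain ⟨P, hPN, hP0, hline⟩ := h52_line (p := 5) (by norm_num; exact hcard) N hbot htop
  have h5P : (5 : ℕ) • (P : (h52_EK W).Point) = 0 := by
    have := P.2
    rwa [Submodule.mem_torsionBy_iff, natCast_zsmul] at this
  have hP0' : (P : (h52_EK W).Point) ≠ 0 := fun h0 => hP0 (Subtype.ext h0)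
  obtain ⟨u, y, huy, hPeq⟩ : ∃ u y, ∃ huy : (h52_EK W).Nonsingular u y,
      (P : (h52_EK W).Point) = Point.some u y huy := by
    cases hP : (P : (h52_EK W).Point) with
    | zero => exact (hP0' hP).elim
    | some x y hxy => exact ⟨x, y, hxy, rfl⟩
  obtain ⟨v, y₂, h₂, h2P, huv, hv, hu, -, -⟩ := h52_five huy (by rw [← hPeq]; exact h5P)
  rw [← hPeq] at h2P
  -- the Galois group permutes `{u, v}`
  have hperm : ∀ σ : AlgebraicClosure ℚ ≃ₐ[ℚ] AlgebraicClosure ℚ,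
      (σ u = u ∨ σ u = v) ∧ (σ v = u ∨ σ v = v) := by
    intro σ
    obtain ⟨k, hk⟩ := hline _ (hstab σ P hPN)
    have hk' : σ • (P : (h52_EK W).Point) = k • (P : (h52_EK W).Point) := by
      have h1 : ((σ • P : Submodule.torsionBy ℤ (h52_EK W).Point ((5 : ℕ) : ℤ)) :
          (h52_EK W).Point) = σ • (P : (h52_EK W).Point) := rfl
      rw [← h1, hk]
      simp
    constructor
    · have hx := h52_xc_zsmul_five h5P k
      rw [← hk', h52_smul_xc, h2P, hPeq] at hx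
      simpa [h52_xc] using hx
    · have hk2 : σ • ((2 : ℕ) • (P : (h52_EK W).Point)) =
          (2 * k) • (P : (h52_EK W).Point) := by
        have e : σ • ((2 : ℕ) • (P : (h52_EK W).Point)) =
            (2 : ℕ) • (σ • (P : (h52_EK W).Point)) := by
          simp only [algEquiv_smul_def]
          exact map_nsmul _ _ _
        rw [e, hk', mul_zsmul, ← natCast_zsmul]
        rfl
      have hx := h52_xc_zsmul_five h5P (2 * k)
      rw [← hk2, h52_smul_xc, h2P, hPeq] at hx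
      simpa [h52_xc] using hx
  have hsum : ∀ σ : AlgebraicClosure ℚ ≃ₐ[ℚ] AlgebraicClosure ℚ, σ (u + v) = u + v := by
    intro σ
    have hne : σ u ≠ σ v := fun h0 => huv (σ.injective h0)
    rcases hperm σ with ⟨h1 | h1, h2 | h2⟩
    · exact (hne (h1.trans h2.symm)).elim
    · rw [map_add, h1, h2]
    · rw [map_add, h1, h2, add_comm]
    · exact (hne (h1.trans h2.symm)).elim
  have hprod : ∀ σ : AlgebraicClosure ℚ ≃ₐ[ℚ] AlgebraicClosure ℚ, σ (u * v) = u * v := by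
    intro σ
    have hne : σ u ≠ σ v := fun h0 => huv (σ.injective h0)
    rcases hperm σ with ⟨h1 | h1, h2 | h2⟩
    · exact (hne (h1.trans h2.symm)).elim
    · rw [map_mul, h1, h2]
    · rw [map_mul, h1, h2, mul_comm]
    · exact (hne (h1.trans h2.symm)).elim
  obtain ⟨s₁, hs₁⟩ := h52_rational_of_fixed _ hsum
  obtain ⟨s₂, hs₂⟩ := h52_rational_of_fixed _ hprod
  refine ⟨s₁, s₂, u, v, huv, hs₁.symm, hs₂.symm, ?_, ?_⟩
  · rw [h52_EK_b₂, h52_EK_b₄, h52_EK_b₆, h52_EK_b₈, h52_psi, h52_phi] at hv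
    exact hv
  · rw [h52_EK_b₂, h52_EK_b₄, h52_EK_b₆, h52_EK_b₈, h52_psi, h52_phi] at hu
    exact hu

/-- Rational form of `five_reducible`: the elementary symmetric functions `s₁ = u + v`,
`s₂ = u v` of the two `x`-coordinates on a Galois-stable line of `E[5]` are rational and satisfy
two explicit equations (in short form `b₂ = 0, b₄ = 2A, b₆ = 4B, b₈ = -A²` these are
`4B = s₁(s₁² - 6s₂ - 2A)` and `A² + 2A(s₁² - s₂) - s₁⁴ + 5s₁²s₂ + 5s₂² = 0`). -/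
theorem five_reducible_rat (hΔ : W.Δ ≠ 0) (h : ¬ W.ModRepIsIrreducible 5) :
    ∃ s₁ s₂ : ℚ, s₁ ^ 2 - 4 * s₂ ≠ 0 ∧
      s₁ ^ 3 - 6 * s₁ * s₂ - (W.b₂ : ℚ) * s₂ - (W.b₄ : ℚ) * s₁ - (W.b₆ : ℚ) = 0 ∧
      s₁ ^ 4 - 8 * s₁ ^ 2 * s₂ + 10 * s₂ ^ 2 - (W.b₂ : ℚ) * s₁ * s₂ - (W.b₄ : ℚ) * s₁ ^ 2
        - 2 * (W.b₄ : ℚ) * s₂ - 3 * (W.b₆ : ℚ) * s₁ - 2 * (W.b₈ : ℚ) = 0 := by
  obtain ⟨s₁, s₂, u, v, huv, hs₁, hs₂, hR1, hR2⟩ := five_reducible W hΔ h
  have huv' : u - v ≠ 0 := sub_ne_zero.mpr huv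
  have e0 : (u + v) ^ 2 - 4 * (u * v) ≠ 0 := by
    have : (u + v) ^ 2 - 4 * (u * v) = (u - v) ^ 2 := by ring
    rw [this]
    exact pow_ne_zero 2 huv'
  have e1 : (u + v) ^ 3 - 6 * (u + v) * (u * v) - ((W.b₂ : ℤ) : AlgebraicClosure ℚ) * (u * v)
      - ((W.b₄ : ℤ) : AlgebraicClosure ℚ) * (u + v) - ((W.b₆ : ℤ) : AlgebraicClosure ℚ) = 0 := by
    have : (u - v) * ((u + v) ^ 3 - 6 * (u + v) * (u * v)
        - ((W.b₂ : ℤ) : AlgebraicClosure ℚ) * (u * v)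
        - ((W.b₄ : ℤ) : AlgebraicClosure ℚ) * (u + v) - ((W.b₆ : ℤ) : AlgebraicClosure ℚ)) = 0 := by
      linear_combination (-1 : AlgebraicClosure ℚ) * hR1 + hR2
    exact (mul_eq_zero.mp this).resolve_left huv'
  have e2 : (u + v) ^ 4 - 8 * (u + v) ^ 2 * (u * v) + 10 * (u * v) ^ 2
      - ((W.b₂ : ℤ) : AlgebraicClosure ℚ) * (u + v) * (u * v)
      - ((W.b₄ : ℤ) : AlgebraicClosure ℚ) * (u + v) ^ 2
      - 2 * ((W.b₄ : ℤ) : AlgebraicClosure ℚ) * (u * v)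
      - 3 * ((W.b₆ : ℤ) : AlgebraicClosure ℚ) * (u + v)
      - 2 * ((W.b₈ : ℤ) : AlgebraicClosure ℚ) = 0 := by
    linear_combination (-1 : AlgebraicClosure ℚ) * hR1 - hR2
  rw [hs₁, hs₂] at e0 e1 e2
  refine ⟨s₁, s₂, ?_, ?_, ?_⟩
  · intro h0
    apply e0
    have := congrArg (algebraMap ℚ (AlgebraicClosure ℚ)) h0
    simpa using this
  · apply (algebraMap ℚ (AlgebraicClosure ℚ)).injective
    simpa using e1
  · apply (algebraMap ℚ (AlgebraicClosure ℚ)).injective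
    simpa using e2

end Glue

end Fermat.Agent.S51
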